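/-
S41 / L3a (amalgam): the concrete objects.  `Zq q = ℤ[1/q] ⊂ ℚ`, `GG N q = Γ₀(N)[1/q] ≤ SL(2,ℚ)`,
the two embeddings `iA, iB : Γ₀(N) →* GG N q` (`iA` = cast, `iB γ = [[a, b/q],[q c, d]]`),
their ranges `AA`, `BB`, and `conjQ : Γ₀(Nq) → Γ₀(N)` with `iB (conjQ γ) = iA γ`.
Mathlib only.
-/
import Mathlib

namespace Fermat.Agent.S41.Amalg.Defs

open Matrix MatrixGroups CongruenceSubgroup

/-! ### The ring `ℤ[1/q]` -/

/-- `ℤ[1/q]` as a subring of `ℚ`. -/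
def Zq (q : ℕ) : Subring ℚ where
  carrier := {x | ∃ k : ℕ, ∃ z : ℤ, x * (q : ℚ) ^ k = z}
  mul_mem' := by
    rintro x y ⟨k, z, hz⟩ ⟨l, w, hw⟩
    refine ⟨k + l, z * w, ?_⟩
    push_cast
    rw [← hz, ← hw]
    ring
  one_mem' := ⟨0, 1, by simp⟩
  add_mem' := by
    rintro x y ⟨k, z, hz⟩ ⟨l, w, hw⟩
    refine ⟨k + l, z * (q : ℤ) ^ l + w * (q : ℤ) ^ k, ?_⟩
    push_cast
    rw [← hz, ← hw]
    ring
  zero_mem' := ⟨0, 0, by simp⟩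
  neg_mem' := by
    rintro x ⟨k, z, hz⟩
    refine ⟨k, -z, ?_⟩
    push_cast
    rw [← hz]
    ring

theorem mem_Zq_iff {q : ℕ} {x : ℚ} : x ∈ Zq q ↔ ∃ k : ℕ, ∃ z : ℤ, x * (q : ℚ) ^ k = z := Iff.rfl

theorem intCast_mem_Zq (q : ℕ) (z : ℤ) : (z : ℚ) ∈ Zq q := ⟨0, z, by simp⟩

theorem natCast_mem_Zq (q : ℕ) (n : ℕ) : (n : ℚ) ∈ Zq q := ⟨0, n, by simp⟩

theorem inv_q_mem_Zq (q : ℕ) [NeZero q] : ((q : ℚ))⁻¹ ∈ Zq q :=
  ⟨1, 1, by simp [NeZero.ne]⟩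

theorem intCast_div_q_mem_Zq (q : ℕ) [NeZero q] (z : ℤ) : (z : ℚ) / q ∈ Zq q := by
  rw [div_eq_mul_inv]
  exact (Zq q).mul_mem (intCast_mem_Zq q z) (inv_q_mem_Zq q)

/-! ### The group `Γ₀(N)[1/q]` -/

/-- `Γ₀(N)[1/q]`: matrices of `SL(2,ℚ)` with entries in `ℤ[1/q]` and lower-left entry in
`N ℤ[1/q]`. -/
def GG (N q : ℕ) : Subgroup SL(2, ℚ) where
  carrier := {g | (∀ i j, g i j ∈ Zq q) ∧ ∃ t ∈ Zq q, g 1 0 = N * t}
  mul_mem' := by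
    rintro g h ⟨hg, t, ht, hgt⟩ ⟨hh, s, hs, hhs⟩
    refine ⟨fun i j => ?_, t * h 0 0 + g 1 1 * s, ?_, ?_⟩
    · change ((g : Matrix (Fin 2) (Fin 2) ℚ) * (h : Matrix (Fin 2) (Fin 2) ℚ)) i j ∈ Zq q
      rw [Matrix.mul_apply, Fin.sum_univ_two]
      exact (Zq q).add_mem ((Zq q).mul_mem (hg i 0) (hh 0 j)) ((Zq q).mul_mem (hg i 1) (hh 1 j))
    · exact (Zq q).add_mem ((Zq q).mul_mem ht (hh 0 0)) ((Zq q).mul_mem (hg 1 1) hs)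
    · change ((g : Matrix (Fin 2) (Fin 2) ℚ) * (h : Matrix (Fin 2) (Fin 2) ℚ)) 1 0 = _
      rw [Matrix.mul_apply, Fin.sum_univ_two, hgt, hhs]
      ring
  one_mem' := by
    refine ⟨fun i j => ?_, 0, (Zq q).zero_mem, by simp⟩
    change (1 : Matrix (Fin 2) (Fin 2) ℚ) i j ∈ Zq q
    rw [Matrix.one_apply]
    split_ifs
    · exact (Zq q).one_mem
    · exact (Zq q).zero_mem
  inv_mem' := by
    rintro g ⟨hg, t, ht, hgt⟩
    refine ⟨fun i j => ?_, -t, (Zq q).neg_mem ht, ?_⟩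
    · change (Matrix.adjugate (g : Matrix (Fin 2) (Fin 2) ℚ)) i j ∈ Zq q
      rw [Matrix.adjugate_fin_two]
      fin_cases i <;> fin_cases j
      · exact hg 1 1
      · exact (Zq q).neg_mem (hg 0 1)
      · exact (Zq q).neg_mem (hg 1 0)
      · exact hg 0 0
    · change (Matrix.adjugate (g : Matrix (Fin 2) (Fin 2) ℚ)) 1 0 = _
      rw [Matrix.adjugate_fin_two]
      simp [hgt]

theorem mem_GG_iff {N q : ℕ} {g : SL(2, ℚ)} :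
    g ∈ GG N q ↔ (∀ i j, g i j ∈ Zq q) ∧ ∃ t ∈ Zq q, g 1 0 = N * t := Iff.rfl

/-! ### Conjugation by `diag(1,q)` -/

/-- `[[a,b],[c,d]] ↦ [[a, b/q],[q c, d]]` on `SL(2,ℚ)` (conjugation by `diag(1,q)`). -/
def conjD (q : ℕ) [NeZero q] : SL(2, ℚ) →* SL(2, ℚ) where
  toFun g := ⟨!![g 0 0, g 0 1 / q; q * g 1 0, g 1 1], by
    have h := g.2
    rw [Matrix.det_fin_two] at h
    rw [Matrix.det_fin_two_of]
    have hq : (q : ℚ) ≠ 0 := Nat.cast_ne_zero.mpr (NeZero.ne q)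
    field_simp
    linarith⟩
  map_one' := by
    ext i j
    fin_cases i <;> fin_cases j <;> simp
  map_mul' g h := by
    have hq : (q : ℚ) ≠ 0 := Nat.cast_ne_zero.mpr (NeZero.ne q)
    ext i j
    fin_cases i <;> fin_cases j <;>
      simp [Matrix.mul_apply, Fin.sum_univ_two] <;> field_simp

@[simp] theorem conjD_apply (q : ℕ) [NeZero q] (g : SL(2, ℚ)) :
    ((conjD q g : SL(2, ℚ)) : Matrix (Fin 2) (Fin 2) ℚ) =
      !![g 0 0, g 0 1 / q; q * g 1 0, g 1 1] := rfl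

theorem conjD_injective (q : ℕ) [NeZero q] : Function.Injective (conjD q) := by
  have hq : (q : ℚ) ≠ 0 := Nat.cast_ne_zero.mpr (NeZero.ne q)
  intro g h hgh
  have h' := congrArg (fun x : SL(2, ℚ) => (x : Matrix (Fin 2) (Fin 2) ℚ)) hgh
  simp only [conjD_apply] at h'
  ext i j
  have e00 : g 0 0 = h 0 0 := congrFun (congrFun h' 0) 0
  have e01 : g 0 1 / (q : ℚ) = h 0 1 / (q : ℚ) := congrFun (congrFun h' 0) 1
  have e10 : (q : ℚ) * g 1 0 = (q : ℚ) * h 1 0 := congrFun (congrFun h' 1) 0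
  have e11 : g 1 1 = h 1 1 := congrFun (congrFun h' 1) 1
  fin_cases i <;> fin_cases j
  · exact e00
  · exact (div_left_inj' hq).mp e01
  · exact mul_left_cancel₀ hq e10
  · exact e11

/-- the cast `SL(2,ℤ) →* SL(2,ℚ)`. -/
abbrev castSL : SL(2, ℤ) →* SL(2, ℚ) := SpecialLinearGroup.map (Int.castRingHom ℚ)

@[simp] theorem castSL_apply (γ : SL(2, ℤ)) (i j : Fin 2) : castSL γ i j = ((γ i j : ℤ) : ℚ) := rfl

theorem castSL_injective : Function.Injective castSL := by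
  intro g h hgh
  ext i j
  have := congrArg (fun x : SL(2, ℚ) => x i j) hgh
  simpa using this

theorem castSL_mem_GG {N : ℕ} (q : ℕ) {γ : SL(2, ℤ)} (hγ : γ ∈ Gamma0 N) : castSL γ ∈ GG N q := by
  refine ⟨fun i j => intCast_mem_Zq q _, ?_⟩
  rw [Gamma0_mem, ZMod.intCast_zmod_eq_zero_iff_dvd] at hγ
  obtain ⟨t, ht⟩ := hγ
  exact ⟨t, intCast_mem_Zq q t, by rw [castSL_apply, ht]; push_cast; ring⟩

theorem conjD_castSL_mem_GG {N : ℕ} (q : ℕ) [NeZero q] {γ : SL(2, ℤ)} (hγ : γ ∈ Gamma0 N) :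
    conjD q (castSL γ) ∈ GG N q := by
  rw [Gamma0_mem, ZMod.intCast_zmod_eq_zero_iff_dvd] at hγ
  obtain ⟨t, ht⟩ := hγ
  refine ⟨fun i j => ?_, (q : ℚ) * t, (Zq q).mul_mem (natCast_mem_Zq q q) (intCast_mem_Zq q t), ?_⟩
  · change (!![castSL γ 0 0, castSL γ 0 1 / q; q * castSL γ 1 0, castSL γ 1 1] : Matrix _ _ ℚ) i j ∈ _
    fin_cases i <;> fin_cases j
    · exact intCast_mem_Zq q _
    · exact intCast_div_q_mem_Zq q _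
    · exact (Zq q).mul_mem (natCast_mem_Zq q q) (intCast_mem_Zq q _)
    · exact intCast_mem_Zq q _
  · change (!![castSL γ 0 0, castSL γ 0 1 / q; q * castSL γ 1 0, castSL γ 1 1] : Matrix _ _ ℚ) 1 0 = _
    simp [ht]
    ring

/-! ### The two embeddings of `Γ₀(N)` -/

/-- `iA`: the cast `Γ₀(N) → Γ₀(N)[1/q]`. -/
def iA (N q : ℕ) : Gamma0 N →* GG N q :=
  (castSL.comp (Gamma0 N).subtype).codRestrict (GG N q) (fun γ => castSL_mem_GG q γ.2)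

/-- `iB`: `[[a,b],[c,d]] ↦ [[a, b/q],[q c, d]]`, `Γ₀(N) → Γ₀(N)[1/q]`. -/
def iB (N q : ℕ) [NeZero q] : Gamma0 N →* GG N q :=
  (((conjD q).comp castSL).comp (Gamma0 N).subtype).codRestrict (GG N q)
    (fun γ => conjD_castSL_mem_GG q γ.2)

@[simp] theorem iA_coe (N q : ℕ) (γ : Gamma0 N) :
    ((iA N q γ : GG N q) : SL(2, ℚ)) = castSL (γ : SL(2, ℤ)) := rfl

@[simp] theorem iB_coe (N q : ℕ) [NeZero q] (γ : Gamma0 N) :
    ((iB N q γ : GG N q) : SL(2, ℚ)) = conjD q (castSL (γ : SL(2, ℤ))) := rfl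

theorem iA_apply (N q : ℕ) (γ : Gamma0 N) (i j : Fin 2) :
    ((iA N q γ : GG N q) : SL(2, ℚ)) i j = (((γ : SL(2, ℤ)) i j : ℤ) : ℚ) := rfl

theorem iB_matrix (N q : ℕ) [NeZero q] (γ : Gamma0 N) :
    (((iB N q γ : GG N q) : SL(2, ℚ)) : Matrix (Fin 2) (Fin 2) ℚ) =
      !![(((γ : SL(2, ℤ)) 0 0 : ℤ) : ℚ), (((γ : SL(2, ℤ)) 0 1 : ℤ) : ℚ) / q;
        q * (((γ : SL(2, ℤ)) 1 0 : ℤ) : ℚ), (((γ : SL(2, ℤ)) 1 1 : ℤ) : ℚ)] := rfl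

theorem iA_injective (N q : ℕ) : Function.Injective (iA N q) := by
  intro g h hgh
  have := congrArg (fun x : GG N q => (x : SL(2, ℚ))) hgh
  exact Subtype.ext (castSL_injective this)

theorem iB_injective (N q : ℕ) [NeZero q] : Function.Injective (iB N q) := by
  intro g h hgh
  have := congrArg (fun x : GG N q => (x : SL(2, ℚ))) hgh
  exact Subtype.ext (castSL_injective (conjD_injective q this))

/-- the image of `iA`. -/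
def AA (N q : ℕ) : Subgroup (GG N q) := (iA N q).range

/-- the image of `iB`. -/
def BB (N q : ℕ) [NeZero q] : Subgroup (GG N q) := (iB N q).range

theorem iA_mem_AA (N q : ℕ) (γ : Gamma0 N) : iA N q γ ∈ AA N q := ⟨γ, rfl⟩

theorem iB_mem_BB (N q : ℕ) [NeZero q] (γ : Gamma0 N) : iB N q γ ∈ BB N q := ⟨γ, rfl⟩

/-! ### `Γ₀(Nq)` inside both copies -/

theorem dvd_of_mem_Gamma0 {M : ℕ} {γ : SL(2, ℤ)} (h : γ ∈ Gamma0 M) : (M : ℤ) ∣ γ 1 0 := by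
  rwa [Gamma0_mem, ZMod.intCast_zmod_eq_zero_iff_dvd] at h

theorem mem_Gamma0_of_dvd {M : ℕ} {γ : SL(2, ℤ)} (h : (M : ℤ) ∣ γ 1 0) : γ ∈ Gamma0 M := by
  rwa [Gamma0_mem, ZMod.intCast_zmod_eq_zero_iff_dvd]

theorem Gamma0_mul_le (N q : ℕ) : Gamma0 (N * q) ≤ Gamma0 N := by
  intro γ hγ
  refine mem_Gamma0_of_dvd (dvd_trans ?_ (dvd_of_mem_Gamma0 hγ))
  push_cast
  exact dvd_mul_right _ _

/-- the inclusion `Γ₀(Nq) → Γ₀(N)`. -/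
def inclQ (N q : ℕ) : Gamma0 (N * q) →* Gamma0 N := Subgroup.inclusion (Gamma0_mul_le N q)

@[simp] theorem inclQ_coe (N q : ℕ) (γ : Gamma0 (N * q)) :
    ((inclQ N q γ : Gamma0 N) : SL(2, ℤ)) = γ := rfl

/-- `[[a,b],[c,d]] ↦ [[a, q b],[c/q, d]]`, `Γ₀(Nq) → Γ₀(N)`. -/
def conjQ (N q : ℕ) [NeZero q] (γ : Gamma0 (N * q)) : Gamma0 N :=
  ⟨⟨!![(γ : SL(2, ℤ)) 0 0, q * (γ : SL(2, ℤ)) 0 1; (γ : SL(2, ℤ)) 1 0 / q, (γ : SL(2, ℤ)) 1 1], by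
    have hdvd : (q : ℤ) ∣ (γ : SL(2, ℤ)) 1 0 := by
      refine dvd_trans ?_ (dvd_of_mem_Gamma0 γ.2)
      push_cast
      exact dvd_mul_left _ _
    have h := (γ : SL(2, ℤ)).2
    rw [Matrix.det_fin_two] at h
    rw [Matrix.det_fin_two_of]
    have e : (q : ℤ) * (γ : SL(2, ℤ)) 0 1 * ((γ : SL(2, ℤ)) 1 0 / q) =
        (γ : SL(2, ℤ)) 0 1 * (γ : SL(2, ℤ)) 1 0 := by
      obtain ⟨t, ht⟩ := hdvd
      have hq : (q : ℤ) ≠ 0 := Nat.cast_ne_zero.mpr (NeZero.ne q)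
      rw [ht, Int.mul_ediv_cancel_left _ hq]
      ring
    rw [e]
    exact h⟩, by
    apply mem_Gamma0_of_dvd
    have hq : (q : ℤ) ≠ 0 := Nat.cast_ne_zero.mpr (NeZero.ne q)
    obtain ⟨t, ht⟩ := dvd_of_mem_Gamma0 γ.2
    change (N : ℤ) ∣ (γ : SL(2, ℤ)) 1 0 / q
    rw [ht]
    push_cast
    rw [show (N : ℤ) * q * t = q * (N * t) by ring, Int.mul_ediv_cancel_left _ hq]
    exact dvd_mul_right _ _⟩

theorem conjQ_coe (N q : ℕ) [NeZero q] (γ : Gamma0 (N * q)) :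
    (((conjQ N q γ : Gamma0 N) : SL(2, ℤ)) : Matrix (Fin 2) (Fin 2) ℤ) =
      !![(γ : SL(2, ℤ)) 0 0, q * (γ : SL(2, ℤ)) 0 1; (γ : SL(2, ℤ)) 1 0 / q, (γ : SL(2, ℤ)) 1 1] :=
  rfl

/-- **the two copies of `Γ₀(Nq)` agree**: `iB (conjQ γ) = iA γ`. -/
theorem iB_conjQ (N q : ℕ) [NeZero q] (γ : Gamma0 (N * q)) :
    iB N q (conjQ N q γ) = iA N q (inclQ N q γ) := by
  have hq : (q : ℚ) ≠ 0 := Nat.cast_ne_zero.mpr (NeZero.ne q)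
  have hdvd : (q : ℤ) ∣ (γ : SL(2, ℤ)) 1 0 := by
    refine dvd_trans ?_ (dvd_of_mem_Gamma0 γ.2)
    push_cast
    exact dvd_mul_left _ _
  apply Subtype.ext
  rw [iB_coe, iA_coe, inclQ_coe]
  ext i j
  change (!![castSL (conjQ N q γ : SL(2, ℤ)) 0 0, castSL (conjQ N q γ : SL(2, ℤ)) 0 1 / q;
    q * castSL (conjQ N q γ : SL(2, ℤ)) 1 0, castSL (conjQ N q γ : SL(2, ℤ)) 1 1] :
      Matrix _ _ ℚ) i j = castSL (γ : SL(2, ℤ)) i j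
  simp only [castSL_apply]
  have e00 : ((conjQ N q γ : Gamma0 N) : SL(2, ℤ)) 0 0 = (γ : SL(2, ℤ)) 0 0 := rfl
  have e01 : ((conjQ N q γ : Gamma0 N) : SL(2, ℤ)) 0 1 = q * (γ : SL(2, ℤ)) 0 1 := rfl
  have e10 : ((conjQ N q γ : Gamma0 N) : SL(2, ℤ)) 1 0 = (γ : SL(2, ℤ)) 1 0 / q := rfl
  have e11 : ((conjQ N q γ : Gamma0 N) : SL(2, ℤ)) 1 1 = (γ : SL(2, ℤ)) 1 1 := rfl
  rw [e00, e01, e10, e11]
  fin_cases i <;> fin_cases j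
  · rfl
  · change (((q : ℤ) * (γ : SL(2, ℤ)) 0 1 : ℤ) : ℚ) / q = _
    push_cast
    field_simp
  · change (q : ℚ) * (((γ : SL(2, ℤ)) 1 0 / (q : ℤ) : ℤ) : ℚ) = _
    obtain ⟨t, ht⟩ := hdvd
    have hq' : (q : ℤ) ≠ 0 := Nat.cast_ne_zero.mpr (NeZero.ne q)
    rw [ht, Int.mul_ediv_cancel_left _ hq']
    exact_mod_cast ht.symm
  · rfl

end Fermat.Agent.S41.Amalg.Defs
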