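/-
S41 / Amalgam (L3a): the normal-form ("ping-pong") lemma for the `q`-adic amalgam
`Γ₀(N)[1/q] = Γ₀(N) *_{Γ₀(Nq)} δ⁻¹Γ₀(N)δ`, in an abstract matrix form (Mathlib only).

Setting: `ι : S →+* R` an injective ring homomorphism (the "integral" elements, e.g. `ℤ → ℤ[1/q]` or
`ℤ → ℚ`), `red : S →+* k` a reduction map to a field with `red q = 0` (e.g. `ℤ → ZMod q`).
* an `A`-letter is a `2 × 2` matrix over `R` with integral entries whose lower-left entry is nonzero
  mod `q` (an element of `Γ₀(N) ∖ Γ₀(Nq)`);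
* a `B`-letter is a matrix `M` such that `q • M` is integral and congruent mod `q` to `b • E₁₂`,
  `b ≠ 0` (an element `[[a, b/q], [q c, d]]` of `δ⁻¹Γ₀(N)δ ∖ Γ₀(Nq)`).
Main result `prod_ne_one`: a nonempty alternating product of `A`- and `B`-letters is `≠ 1`.
Proof: with `k` the number of `B`-letters, `q ^ k • W` is integral and nonzero mod `q`
(rank-one matrices mod `q`: `E₁₂ · x̄ · E₁₂ = c̄(x) · E₁₂`), whereas `q ^ k • 1 ≡ 0` for `k ≥ 1`.
-/
import Mathlib

set_option autoImplicit false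

namespace Fermat.Agent.S41.Amalg.PingPong

open Matrix

variable {R S k : Type*} [CommRing R] [CommRing S] [Field k]

/-- `A`-letter: integral entries, lower-left entry nonzero mod `q`. -/
def IsA (ι : S →+* R) (red : S →+* k) (M : Matrix (Fin 2) (Fin 2) R) : Prop :=
  ∃ Z : Matrix (Fin 2) (Fin 2) S, M = Z.map ι ∧ red (Z 1 0) ≠ 0

/-- `B`-letter: `q • M` is integral and `≡ b • E₁₂` mod `q` with `b ≠ 0`. -/
def IsB (ι : S →+* R) (red : S →+* k) (q : S) (M : Matrix (Fin 2) (Fin 2) R) : Prop :=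
  ∃ Z : Matrix (Fin 2) (Fin 2) S, ι q • M = Z.map ι ∧
    red (Z 0 0) = 0 ∧ red (Z 1 0) = 0 ∧ red (Z 1 1) = 0 ∧ red (Z 0 1) ≠ 0

/-- State of a word starting with an `A`-letter. -/
def StA (ι : S →+* R) (red : S →+* k) (q : S) (M : Matrix (Fin 2) (Fin 2) R) : Prop :=
  ∃ (n : ℕ) (Z : Matrix (Fin 2) (Fin 2) S), ι q ^ n • M = Z.map ι ∧
    ((n = 0 ∧ red (Z 1 0) ≠ 0) ∨ (1 ≤ n ∧ (red (Z 1 0) ≠ 0 ∨ red (Z 1 1) ≠ 0)))

/-- State of a word starting with a `B`-letter. -/
def StB (ι : S →+* R) (red : S →+* k) (q : S) (M : Matrix (Fin 2) (Fin 2) R) : Prop :=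
  ∃ (n : ℕ) (Z : Matrix (Fin 2) (Fin 2) S), ι q ^ n • M = Z.map ι ∧ 1 ≤ n ∧
    red (Z 1 0) = 0 ∧ red (Z 1 1) = 0 ∧ (red (Z 0 0) ≠ 0 ∨ red (Z 0 1) ≠ 0)

variable {ι : S →+* R} {red : S →+* k} {q : S}

theorem stA_of_isA {M : Matrix (Fin 2) (Fin 2) R} (h : IsA ι red M) : StA ι red q M := by
  obtain ⟨Z, hZ, hc⟩ := h
  exact ⟨0, Z, by simpa using hZ, Or.inl ⟨rfl, hc⟩⟩

theorem stB_of_isB {M : Matrix (Fin 2) (Fin 2) R} (h : IsB ι red q M) : StB ι red q M := by
  obtain ⟨Z, hZ, h00, h10, h11, h01⟩ := h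
  exact ⟨1, Z, by simpa using hZ, le_rfl, h10, h11, Or.inr h01⟩

/-- Prepending a `B`-letter to a word in state `A`. -/
theorem stB_mul {Y W : Matrix (Fin 2) (Fin 2) R} (hY : IsB ι red q Y) (hW : StA ι red q W) :
    StB ι red q (Y * W) := by
  obtain ⟨Zy, hZy, h00, h10, h11, h01⟩ := hY
  obtain ⟨n, Z, hZ, hst⟩ := hW
  refine ⟨n + 1, Zy * Z, ?_, Nat.le_add_left 1 n, ?_, ?_, ?_⟩
  · rw [Matrix.map_mul, ← hZy, ← hZ, Matrix.smul_mul, Matrix.mul_smul, smul_smul, pow_succ, mul_comm]
  · simp [Matrix.mul_apply, Fin.sum_univ_two, h10, h11]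
  · simp [Matrix.mul_apply, Fin.sum_univ_two, h10, h11]
  · have hrow : red (Z 1 0) ≠ 0 ∨ red (Z 1 1) ≠ 0 := by
      rcases hst with ⟨-, h⟩ | ⟨-, h⟩
      · exact Or.inl h
      · exact h
    rcases hrow with h | h
    · left
      simp [Matrix.mul_apply, Fin.sum_univ_two, h00, h01, h]
    · right
      simp [Matrix.mul_apply, Fin.sum_univ_two, h00, h01, h]

/-- Prepending an `A`-letter to a word in state `B`. -/
theorem stA_mul {X W : Matrix (Fin 2) (Fin 2) R} (hX : IsA ι red X) (hW : StB ι red q W) :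
    StA ι red q (X * W) := by
  obtain ⟨Zx, hZx, hc⟩ := hX
  obtain ⟨n, Z, hZ, hn, h10, h11, hrow⟩ := hW
  refine ⟨n, Zx * Z, ?_, Or.inr ⟨hn, ?_⟩⟩
  · rw [Matrix.map_mul, ← hZx, ← hZ, Matrix.mul_smul]
  · rcases hrow with h | h
    · left
      simp [Matrix.mul_apply, Fin.sum_univ_two, h10, hc, h]
    · right
      simp [Matrix.mul_apply, Fin.sum_univ_two, h11, hc, h]

theorem ne_one_of_stA (hι : Function.Injective ι) (hq : red q = 0)
    {M : Matrix (Fin 2) (Fin 2) R} (h : StA ι red q M) : M ≠ 1 := by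
  rintro rfl
  obtain ⟨n, Z, hZ, hst⟩ := h
  have hZ' : Z = (q ^ n) • (1 : Matrix (Fin 2) (Fin 2) S) := by
    ext i j
    apply hι
    have := congrFun (congrFun hZ i) j
    simp only [Matrix.smul_apply, Matrix.map_apply, smul_eq_mul] at this
    rw [← this]
    by_cases hij : i = j
    · subst hij; simp
    · simp [Matrix.one_apply_ne hij]
  rcases hst with ⟨rfl, h⟩ | ⟨hn, h⟩
  · apply h
    rw [hZ']
    simp
  · have hqn : red (q ^ n) = 0 := by
      rw [map_pow, hq, zero_pow (by omega)]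
    rcases h with h | h <;> apply h <;> rw [hZ'] <;> simp [hqn]

theorem ne_one_of_stB (hι : Function.Injective ι) (hq : red q = 0)
    {M : Matrix (Fin 2) (Fin 2) R} (h : StB ι red q M) : M ≠ 1 := by
  rintro rfl
  obtain ⟨n, Z, hZ, hn, -, -, hrow⟩ := h
  have hZ' : Z = (q ^ n) • (1 : Matrix (Fin 2) (Fin 2) S) := by
    ext i j
    apply hι
    have := congrFun (congrFun hZ i) j
    simp only [Matrix.smul_apply, Matrix.map_apply, smul_eq_mul] at this
    rw [← this]
    by_cases hij : i = j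
    · subst hij; simp
    · simp [Matrix.one_apply_ne hij]
  have hqn : red (q ^ n) = 0 := by
    rw [map_pow, hq, zero_pow (by omega)]
  rcases hrow with h | h <;> apply h <;> rw [hZ'] <;> simp [hqn]

/-- The state of the product of a nonempty alternating word, according to its first letter. -/
theorem state_of_word (L : List (Bool × Matrix (Fin 2) (Fin 2) R))
    (hch : L.IsChain (fun a b => a.1 ≠ b.1))
    (hA : ∀ a ∈ L, a.1 = false → IsA ι red a.2)
    (hB : ∀ a ∈ L, a.1 = true → IsB ι red q a.2) :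
    ∀ a ∈ L.head?, (a.1 = false → StA ι red q (L.map Prod.snd).prod) ∧
      (a.1 = true → StB ι red q (L.map Prod.snd).prod) := by
  induction L with
  | nil => intro a ha; simp at ha
  | cons a L ih =>
    intro a' ha'
    simp only [List.head?_cons, Option.mem_def, Option.some.injEq] at ha'
    subst ha'
    have hch' : L.IsChain (fun a b => a.1 ≠ b.1) := hch.tail
    have ih' := ih hch' (fun b hb => hA b (List.mem_cons_of_mem _ hb))
      (fun b hb => hB b (List.mem_cons_of_mem _ hb))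
    cases L with
    | nil =>
      simp only [List.map_cons, List.map_nil, List.prod_cons, List.prod_nil, mul_one]
      exact ⟨fun h => stA_of_isA (hA a (List.mem_cons_self) h),
        fun h => stB_of_isB (hB a (List.mem_cons_self) h)⟩
    | cons b L' =>
      have hab : a.1 ≠ b.1 := by
        have := hch
        rw [List.isChain_cons_cons] at this
        exact this.1
      have hb := ih' b (by simp)
      rw [List.map_cons, List.prod_cons]
      constructor
      · intro ha
        have hb1 : b.1 = true := by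
          cases hb' : b.1
          · exact absurd (ha.trans hb'.symm) hab
          · rfl
        exact stA_mul (hA a (List.mem_cons_self) ha) (hb.2 hb1)
      · intro ha
        have hb1 : b.1 = false := by
          cases hb' : b.1
          · rfl
          · exact absurd (ha.trans hb'.symm) hab
        exact stB_mul (hB a (List.mem_cons_self) ha) (hb.1 hb1)

/-- **Normal form / ping-pong lemma.** A nonempty alternating product of `A`-letters (tag `false`)
and `B`-letters (tag `true`) is not the identity matrix. -/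
theorem prod_ne_one (hι : Function.Injective ι) (hq : red q = 0)
    (L : List (Bool × Matrix (Fin 2) (Fin 2) R)) (hne : L ≠ [])
    (hch : L.IsChain (fun a b => a.1 ≠ b.1))
    (hA : ∀ a ∈ L, a.1 = false → IsA ι red a.2)
    (hB : ∀ a ∈ L, a.1 = true → IsB ι red q a.2) :
    (L.map Prod.snd).prod ≠ 1 := by
  obtain ⟨a, L', rfl⟩ := List.exists_cons_of_ne_nil hne
  have h := state_of_word (ι := ι) (red := red) (q := q) (a :: L') hch hA hB a (by simp)
  cases ha : a.1
  · exact ne_one_of_stA hι hq (h.1 ha)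
  · exact ne_one_of_stB hι hq (h.2 ha)

end Fermat.Agent.S41.Amalg.PingPong
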