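/-
S41 / L3a (amalgam): the normal form hypothesis for the concrete pair
`AA N q = iA(Γ₀(N))`, `BB N q = iB(Γ₀(N))` inside `GG N q = Γ₀(N)[1/q]`,
from the abstract ping-pong lemma `PingPong.prod_ne_one`.
-/
import Fermat.Agent.S41.Amalg.Defs
import Fermat.Agent.S41.Amalg.PingPong

namespace Fermat.Agent.S41.Amalg.Concrete

open Matrix MatrixGroups CongruenceSubgroup
open Fermat.Agent.S41.Amalg.Defs

variable {N q : ℕ} [NeZero q]

/-- an element of `iA(Γ₀(N))` whose lower-left entry is divisible by `q` lies in `iB(Γ₀(N))`. -/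
theorem iA_mem_BB_of_dvd (hq : q.Prime) (hqN : ¬ q ∣ N) (γ : Gamma0 N)
    (h : (q : ℤ) ∣ (γ : SL(2, ℤ)) 1 0) : iA N q γ ∈ BB N q := by
  have hcop : IsCoprime (N : ℤ) (q : ℤ) :=
    Nat.isCoprime_iff_coprime.mpr ((Nat.Prime.coprime_iff_not_dvd hq).mpr hqN).symm
  have hdvd : ((N * q : ℕ) : ℤ) ∣ (γ : SL(2, ℤ)) 1 0 := by
    push_cast
    exact hcop.mul_dvd (dvd_of_mem_Gamma0 γ.2) h
  let γ' : Gamma0 (N * q) := ⟨(γ : SL(2, ℤ)), mem_Gamma0_of_dvd hdvd⟩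
  have e : iA N q γ = iA N q (inclQ N q γ') := rfl
  rw [e, ← iB_conjQ]
  exact iB_mem_BB N q _

/-- an element of `iB(Γ₀(N))` whose upper-right numerator is divisible by `q` lies in
`iA(Γ₀(N))`. -/
theorem iB_mem_AA_of_dvd (γ : Gamma0 N) (h : (q : ℤ) ∣ (γ : SL(2, ℤ)) 0 1) :
    iB N q γ ∈ AA N q := by
  have hq0 : (q : ℤ) ≠ 0 := Nat.cast_ne_zero.mpr (NeZero.ne q)
  have hqQ : (q : ℚ) ≠ 0 := Nat.cast_ne_zero.mpr (NeZero.ne q)
  obtain ⟨b', hb'⟩ := h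
  have hdet := (γ : SL(2, ℤ)).2
  rw [Matrix.det_fin_two] at hdet
  let δ : SL(2, ℤ) := ⟨!![(γ : SL(2, ℤ)) 0 0, b'; q * (γ : SL(2, ℤ)) 1 0, (γ : SL(2, ℤ)) 1 1], by
    rw [Matrix.det_fin_two_of]
    rw [hb'] at hdet
    linarith⟩
  have hδ : δ ∈ Gamma0 N := by
    apply mem_Gamma0_of_dvd
    change (N : ℤ) ∣ q * (γ : SL(2, ℤ)) 1 0
    exact Dvd.dvd.mul_left (dvd_of_mem_Gamma0 γ.2) _
  refine ⟨⟨δ, hδ⟩, ?_⟩
  apply Subtype.ext
  rw [iA_coe, iB_coe]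
  ext i j
  change castSL δ i j = (!![castSL (γ : SL(2, ℤ)) 0 0, castSL (γ : SL(2, ℤ)) 0 1 / q;
    q * castSL (γ : SL(2, ℤ)) 1 0, castSL (γ : SL(2, ℤ)) 1 1] : Matrix _ _ ℚ) i j
  simp only [castSL_apply]
  fin_cases i <;> fin_cases j
  · rfl
  · change ((b' : ℤ) : ℚ) = (((γ : SL(2, ℤ)) 0 1 : ℤ) : ℚ) / q
    rw [hb']
    push_cast
    field_simp
  · change (((q : ℤ) * (γ : SL(2, ℤ)) 1 0 : ℤ) : ℚ) = _
    push_cast
    rfl
  · rfl

/-- the underlying rational matrix of an element of `GG N q`. -/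
def toM (g : ↥(GG N q)) : Matrix (Fin 2) (Fin 2) ℚ := ((g : SL(2, ℚ)) : Matrix (Fin 2) (Fin 2) ℚ)

omit [NeZero q] in
theorem toM_list_prod (L : List ↥(GG N q)) : toM L.prod = (L.map toM).prod := by
  induction L with
  | nil => rfl
  | cons a L ih =>
    rw [List.prod_cons, List.map_cons, List.prod_cons, ← ih]
    rfl

omit [NeZero q] in
theorem toM_one : toM (1 : ↥(GG N q)) = 1 := rfl

/-- an `A`-letter in the sense of `PingPong`. -/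
theorem isA_of_mem (hq : q.Prime) (hqN : ¬ q ∣ N) [Fact q.Prime] {g : ↥(GG N q)}
    (hA : g ∈ AA N q) (hB : g ∉ BB N q) :
    PingPong.IsA (Int.castRingHom ℚ) (Int.castRingHom (ZMod q)) (toM g) := by
  obtain ⟨γ, rfl⟩ := hA
  have hnd : ¬ (q : ℤ) ∣ (γ : SL(2, ℤ)) 1 0 := fun h => hB (iA_mem_BB_of_dvd hq hqN γ h)
  refine ⟨((γ : SL(2, ℤ)) : Matrix (Fin 2) (Fin 2) ℤ), rfl, ?_⟩
  rw [eq_intCast, Ne, ZMod.intCast_zmod_eq_zero_iff_dvd]
  exact hnd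

/-- a `B`-letter in the sense of `PingPong`. -/
theorem isB_of_mem [Fact q.Prime] {g : ↥(GG N q)} (hB : g ∈ BB N q) (hA : g ∉ AA N q) :
    PingPong.IsB (Int.castRingHom ℚ) (Int.castRingHom (ZMod q)) (q : ℤ) (toM g) := by
  have hqQ : (q : ℚ) ≠ 0 := Nat.cast_ne_zero.mpr (NeZero.ne q)
  obtain ⟨γ, rfl⟩ := hB
  have hnd : ¬ (q : ℤ) ∣ (γ : SL(2, ℤ)) 0 1 := fun h => hA (iB_mem_AA_of_dvd γ h)
  refine ⟨!![(q : ℤ) * (γ : SL(2, ℤ)) 0 0, (γ : SL(2, ℤ)) 0 1;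
    (q : ℤ) * ((q : ℤ) * (γ : SL(2, ℤ)) 1 0), (q : ℤ) * (γ : SL(2, ℤ)) 1 1], ?_, ?_, ?_, ?_, ?_⟩
  · rw [toM, iB_matrix]
    ext i j
    fin_cases i <;> fin_cases j
    · simp
    · simp
      field_simp
    · simp
    · simp
  · simp
  · simp
  · simp
  · change (Int.castRingHom (ZMod q)) ((γ : SL(2, ℤ)) 0 1) ≠ 0
    rw [eq_intCast, Ne, ZMod.intCast_zmod_eq_zero_iff_dvd]
    exact hnd

/-- **The normal form hypothesis** for `AA N q`, `BB N q` (statement of `GluePush.NFHyp` /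
`GlueNF.NFHyp`, unfolded). -/
theorem nfHyp (hq : q.Prime) (hqN : ¬ q ∣ N) :
    ∀ L : List (Bool × ↥(GG N q)), L ≠ [] → L.IsChain (fun a b => a.1 ≠ b.1) →
      (∀ a ∈ L, a.1 = false → a.2 ∈ AA N q ∧ a.2 ∉ BB N q) →
      (∀ a ∈ L, a.1 = true → a.2 ∈ BB N q ∧ a.2 ∉ AA N q) →
      (L.map Prod.snd).prod ≠ 1 := by
  intro L hne hch hA hB hprod
  have : Fact q.Prime := ⟨hq⟩
  let f : Bool × ↥(GG N q) → Bool × Matrix (Fin 2) (Fin 2) ℚ := fun a => (a.1, toM a.2)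
  have key := PingPong.prod_ne_one (ι := Int.castRingHom ℚ) (red := Int.castRingHom (ZMod q))
    (q := (q : ℤ)) (RingHom.injective_int _) (by simp) (L.map f)
    (by simpa using hne) ((List.isChain_map f).mpr hch)
    (by
      intro a ha hfa
      obtain ⟨b, hb, rfl⟩ := List.mem_map.mp ha
      exact isA_of_mem hq hqN (hA b hb hfa).1 (hA b hb hfa).2)
    (by
      intro a ha hfa
      obtain ⟨b, hb, rfl⟩ := List.mem_map.mp ha
      exact isB_of_mem (hB b hb hfa).1 (hB b hb hfa).2)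
  apply key
  have e : (L.map f).map Prod.snd = (L.map Prod.snd).map toM := by
    rw [List.map_map, List.map_map]
    rfl
  rw [e, ← toM_list_prod, hprod, toM_one]

end Fermat.Agent.S41.Amalg.Concrete
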