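/-
S41 / Amalgam (L3a): GENERATION of `Γ₀(N)[1/q]` by `Γ₀(N)` and `δ Γ₀(N) δ⁻¹` (`δ = diag(1, q)`), core form
in `SL(2, ℚ)` (Mathlib only; independent of the concrete definitions in `Amalg/Defs.lean`).

Main result `mem_of_rep`: let `S ≤ SL(2, ℚ)` contain every integral matrix with `N ∣ c` (`A`-type) and
every matrix `[[a, b/q], [q c, d]]` with `a b c d ∈ ℤ`, `N ∣ c` (`B`-type). If `q ^ k • g` is an integral
matrix whose lower-left entry is divisible by `N`, then `g ∈ S`.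

Proof (two-step lattice reduction `k + 1 → k`, no trees): `M := q^(k+1) g` has determinant `q^(2k+2)`, so
it is singular mod `q`; choose `a ∈ Γ₀(N)` (either `[[1,0],[N s,1]]` or `[[q,v],[N,u]]`) such that
`a⁻¹ M = diag(1,q) M'` (`exists_stepA`), then `a₁ ∈ Γ₀(N)` (either `[[1,t],[0,1]]` or `[[u,v],[N,q]]`)
such that `a₁⁻¹ M' = diag(q,1) M''` (`exists_stepB`); with `b := δ a₁ δ⁻¹` one gets
`b⁻¹ a⁻¹ g = q^(-k) M''`.
-/
import Mathlib

set_option autoImplicit false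

namespace Fermat.Agent.S41.Amalg.GenCore

open scoped MatrixGroups

/-- Bezout for a prime `q` not dividing `N`. -/
theorem exists_bezout {N q : ℕ} (hq : q.Prime) (hqN : ¬ q ∣ N) :
    ∃ u v : ℤ, (q : ℤ) * u - (N : ℤ) * v = 1 := by
  have hcop : IsCoprime (q : ℤ) (N : ℤ) :=
    Nat.isCoprime_iff_coprime.mpr ((Nat.Prime.coprime_iff_not_dvd hq).mpr hqN)
  obtain ⟨u, v, h⟩ := hcop
  exact ⟨u, -v, by linarith⟩

/-- mod `q` linear algebra: if `q ∣ r0 * s1 - r1 * s0` and `(r0, r1) ≢ 0`, then the vector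
`(s0, s1)` is a multiple of `(r0, r1)` mod `q`. -/
theorem exists_mul_of_det {q : ℕ} (hq : q.Prime) (r0 r1 s0 s1 : ℤ)
    (hdet : (q : ℤ) ∣ r0 * s1 - r1 * s0) (hr : ¬ ((q : ℤ) ∣ r0 ∧ (q : ℤ) ∣ r1)) :
    ∃ t : ℤ, (q : ℤ) ∣ s0 - t * r0 ∧ (q : ℤ) ∣ s1 - t * r1 := by
  have : Fact q.Prime := ⟨hq⟩
  have hdet' : (r0 : ZMod q) * s1 - r1 * s0 = 0 := by
    have := (ZMod.intCast_zmod_eq_zero_iff_dvd (r0 * s1 - r1 * s0) q).mpr hdet
    push_cast at this
    exact this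
  have key : ∀ a : ℤ, ((q : ℤ) ∣ a) ↔ ((a : ZMod q) = 0) := fun a =>
    (ZMod.intCast_zmod_eq_zero_iff_dvd a q).symm
  by_cases h0 : (q : ℤ) ∣ r0
  · have h1 : ¬ (q : ℤ) ∣ r1 := fun h => hr ⟨h0, h⟩
    have h0' : (r0 : ZMod q) = 0 := (key r0).mp h0
    have h1' : (r1 : ZMod q) ≠ 0 := fun h => h1 ((key r1).mpr h)
    obtain ⟨t, ht⟩ := ZMod.intCast_surjective ((s1 : ZMod q) * (r1 : ZMod q)⁻¹)
    refine ⟨t, ?_, ?_⟩
    · rw [key]
      push_cast
      rw [ht, h0']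
      rw [h0'] at hdet'
      have : (r1 : ZMod q) * s0 = 0 := by linear_combination -hdet'
      rcases mul_eq_zero.mp this with h | h
      · exact absurd h h1'
      · rw [h]; ring
    · rw [key]
      push_cast
      rw [ht]
      field_simp
      ring
  · have h0' : (r0 : ZMod q) ≠ 0 := fun h => h0 ((key r0).mpr h)
    obtain ⟨t, ht⟩ := ZMod.intCast_surjective ((s0 : ZMod q) * (r0 : ZMod q)⁻¹)
    refine ⟨t, ?_, ?_⟩
    · rw [key]
      push_cast
      rw [ht]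
      field_simp
      ring
    · rw [key]
      push_cast
      rw [ht]
      have : (r0 : ZMod q) * ((s1 : ZMod q) - s0 * (r0 : ZMod q)⁻¹ * r1) = 0 := by
        field_simp
        linear_combination hdet'
      rcases mul_eq_zero.mp this with h | h
      · exact absurd h h0'
      · exact h

/-- Step A: an element `[[x, z], [y, w]]` of `Γ₀(N)` whose inverse makes the second row of `M`
divisible by `q`. -/
theorem exists_stepA {N q : ℕ} (hq : q.Prime) (hqN : ¬ q ∣ N) (m00 m01 m10 m11 : ℤ)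
    (hdet : (q : ℤ) ∣ m00 * m11 - m01 * m10) :
    ∃ x y z w : ℤ, x * w - z * y = 1 ∧ (N : ℤ) ∣ y ∧
      (q : ℤ) ∣ x * m10 - y * m00 ∧ (q : ℤ) ∣ x * m11 - y * m01 := by
  obtain ⟨u, v, huv⟩ := exists_bezout hq hqN
  by_cases h : (q : ℤ) ∣ m00 ∧ (q : ℤ) ∣ m01
  · refine ⟨q, N, v, u, by linarith, dvd_rfl, ?_, ?_⟩
    · exact dvd_sub (Dvd.intro _ rfl) (Dvd.dvd.mul_left h.1 _)
    · exact dvd_sub (Dvd.intro _ rfl) (Dvd.dvd.mul_left h.2 _)
  · obtain ⟨t, ht0, ht1⟩ := exists_mul_of_det hq m00 m01 m10 m11 hdet h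
    refine ⟨1, (N : ℤ) * (-v * t), 0, 1, by ring, Dvd.intro _ rfl, ?_, ?_⟩
    · have : (1 : ℤ) * m10 - (N : ℤ) * (-v * t) * m00 = (m10 - t * m00) + (q : ℤ) * (u * t * m00) := by
        linear_combination (-(t * m00)) * huv
      rw [this]
      exact dvd_add ht0 (Dvd.intro _ rfl)
    · have : (1 : ℤ) * m11 - (N : ℤ) * (-v * t) * m01 = (m11 - t * m01) + (q : ℤ) * (u * t * m01) := by
        linear_combination (-(t * m01)) * huv
      rw [this]
      exact dvd_add ht1 (Dvd.intro _ rfl)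

/-- Step B: an element `[[x, z], [y, w]]` of `Γ₀(N)` whose inverse makes the first row of `M'`
divisible by `q`. -/
theorem exists_stepB {N q : ℕ} (hq : q.Prime) (hqN : ¬ q ∣ N) (n00 n01 n10 n11 : ℤ)
    (hdet : (q : ℤ) ∣ n00 * n11 - n01 * n10) :
    ∃ x y z w : ℤ, x * w - z * y = 1 ∧ (N : ℤ) ∣ y ∧
      (q : ℤ) ∣ w * n00 - z * n10 ∧ (q : ℤ) ∣ w * n01 - z * n11 := by
  obtain ⟨u, v, huv⟩ := exists_bezout hq hqN
  by_cases h : (q : ℤ) ∣ n10 ∧ (q : ℤ) ∣ n11
  · refine ⟨u, N, v, q, by linarith, dvd_rfl, ?_, ?_⟩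
    · exact dvd_sub (Dvd.intro _ rfl) (Dvd.dvd.mul_left h.1 _)
    · exact dvd_sub (Dvd.intro _ rfl) (Dvd.dvd.mul_left h.2 _)
  · have hdet' : (q : ℤ) ∣ n10 * n01 - n11 * n00 := by
      have : n10 * n01 - n11 * n00 = -(n00 * n11 - n01 * n10) := by ring
      rw [this]
      exact (dvd_neg).mpr hdet
    obtain ⟨t, ht0, ht1⟩ := exists_mul_of_det hq n10 n11 n00 n01 hdet' h
    refine ⟨1, 0, t, 1, by ring, dvd_zero _, ?_, ?_⟩
    · simpa using ht0
    · simpa using ht1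

/-- `g` is represented by the integral matrix `(m00, m01; m10, m11)` with denominator `q ^ k`. -/
def Rep (q k : ℕ) (g : SL(2, ℚ)) (m00 m01 m10 m11 : ℤ) : Prop :=
  (q : ℚ) ^ k * g 0 0 = m00 ∧ (q : ℚ) ^ k * g 0 1 = m01 ∧
    (q : ℚ) ^ k * g 1 0 = m10 ∧ (q : ℚ) ^ k * g 1 1 = m11

/-- An element of `SL(2, ℚ)` with prescribed entries. -/
def mk (a b c d : ℚ) (h : a * d - b * c = 1) : SL(2, ℚ) :=
  ⟨!![a, b; c, d], by rw [Matrix.det_fin_two_of]; exact h⟩

@[simp] theorem mk_00 (a b c d : ℚ) (h : a * d - b * c = 1) : (mk a b c d h) 0 0 = a := rfl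
@[simp] theorem mk_01 (a b c d : ℚ) (h : a * d - b * c = 1) : (mk a b c d h) 0 1 = b := rfl
@[simp] theorem mk_10 (a b c d : ℚ) (h : a * d - b * c = 1) : (mk a b c d h) 1 0 = c := rfl
@[simp] theorem mk_11 (a b c d : ℚ) (h : a * d - b * c = 1) : (mk a b c d h) 1 1 = d := rfl

theorem mul_00 (g h : SL(2, ℚ)) : (g * h) 0 0 = g 0 0 * h 0 0 + g 0 1 * h 1 0 := by
  rw [Matrix.SpecialLinearGroup.coe_mul, Matrix.mul_apply, Fin.sum_univ_two]
theorem mul_01 (g h : SL(2, ℚ)) : (g * h) 0 1 = g 0 0 * h 0 1 + g 0 1 * h 1 1 := by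
  rw [Matrix.SpecialLinearGroup.coe_mul, Matrix.mul_apply, Fin.sum_univ_two]
theorem mul_10 (g h : SL(2, ℚ)) : (g * h) 1 0 = g 1 0 * h 0 0 + g 1 1 * h 1 0 := by
  rw [Matrix.SpecialLinearGroup.coe_mul, Matrix.mul_apply, Fin.sum_univ_two]
theorem mul_11 (g h : SL(2, ℚ)) : (g * h) 1 1 = g 1 0 * h 0 1 + g 1 1 * h 1 1 := by
  rw [Matrix.SpecialLinearGroup.coe_mul, Matrix.mul_apply, Fin.sum_univ_two]

theorem det_eq_one (g : SL(2, ℚ)) : g 0 0 * g 1 1 - g 0 1 * g 1 0 = 1 := by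
  have := g.det_coe
  rwa [Matrix.det_fin_two] at this

/-- **Generation of `Γ₀(N)[1/q]`.** Let `S` be a subgroup of `SL(2, ℚ)` containing all integral
matrices with `N ∣ c` (`A`-type) and all matrices `[[a, b/q], [q c, d]]` with `a b c d` integers,
`N ∣ c` (`B`-type). Then `S` contains every `g` such that `q ^ k • g` is integral with lower-left
entry divisible by `N`. -/
theorem mem_of_rep {N q : ℕ} (hq : q.Prime) (hqN : ¬ q ∣ N) (S : Subgroup SL(2, ℚ))
    (hA : ∀ (g : SL(2, ℚ)) (a b c d : ℤ), g 0 0 = a → g 0 1 = b → g 1 0 = c → g 1 1 = d →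
      (N : ℤ) ∣ c → g ∈ S)
    (hB : ∀ (g : SL(2, ℚ)) (a b c d : ℤ), g 0 0 = a → g 0 1 = (b : ℚ) / q → g 1 0 = (q : ℚ) * c →
      g 1 1 = d → (N : ℤ) ∣ c → g ∈ S) :
    ∀ (k : ℕ) (g : SL(2, ℚ)) (m00 m01 m10 m11 : ℤ), Rep q k g m00 m01 m10 m11 →
      (N : ℤ) ∣ m10 → g ∈ S := by
  have hq0 : (q : ℚ) ≠ 0 := by exact_mod_cast hq.ne_zero
  have hcop : IsCoprime (N : ℤ) (q : ℤ) :=
    (Nat.isCoprime_iff_coprime.mpr ((Nat.Prime.coprime_iff_not_dvd hq).mpr hqN)).symm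
  intro k
  induction k with
  | zero =>
    intro g m00 m01 m10 m11 hrep hN
    obtain ⟨h00, h01, h10, h11⟩ := hrep
    simp only [pow_zero, one_mul] at h00 h01 h10 h11
    exact hA g m00 m01 m10 m11 h00 h01 h10 h11 hN
  | succ k ih =>
    intro g m00 m01 m10 m11 hrep hN
    obtain ⟨h00, h01, h10, h11⟩ := hrep
    have hqk : (q : ℚ) ^ (k + 1) ≠ 0 := pow_ne_zero _ hq0
    have e00 : g 0 0 = (m00 : ℚ) / (q : ℚ) ^ (k + 1) := by
      rw [eq_div_iff hqk]; linarith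
    have e01 : g 0 1 = (m01 : ℚ) / (q : ℚ) ^ (k + 1) := by
      rw [eq_div_iff hqk]; linarith
    have e10 : g 1 0 = (m10 : ℚ) / (q : ℚ) ^ (k + 1) := by
      rw [eq_div_iff hqk]; linarith
    have e11 : g 1 1 = (m11 : ℚ) / (q : ℚ) ^ (k + 1) := by
      rw [eq_div_iff hqk]; linarith
    -- determinant of `M`
    have hdetQ : ((m00 * m11 - m01 * m10 : ℤ) : ℚ) = ((q : ℤ) ^ (2 * k + 2) : ℤ) := by
      have hd := det_eq_one g
      rw [e00, e01, e10, e11] at hd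
      push_cast
      field_simp at hd
      linear_combination hd
    have hdetZ : m00 * m11 - m01 * m10 = (q : ℤ) ^ (2 * k + 2) := by exact_mod_cast hdetQ
    have hdet : (q : ℤ) ∣ m00 * m11 - m01 * m10 := by
      rw [hdetZ]; exact dvd_pow_self _ (by omega)
    -- step A
    obtain ⟨x, y, z, w, hxw, hNy, ⟨r10, hr10⟩, ⟨r11, hr11⟩⟩ :=
      exists_stepA hq hqN m00 m01 m10 m11 hdet
    -- the intermediate matrix `M1' = (n00, n01; r10, r11)`
    set n00 : ℤ := w * m00 - z * m10 with hn00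
    set n01 : ℤ := w * m01 - z * m11 with hn01
    have hdet1 : (q : ℤ) * (n00 * r11 - n01 * r10) = (q : ℤ) ^ (2 * k + 2) := by
      rw [← hdetZ]
      have : (q : ℤ) * (n00 * r11 - n01 * r10) = n00 * ((q : ℤ) * r11) - n01 * ((q : ℤ) * r10) := by
        ring
      rw [this, ← hr10, ← hr11, hn00, hn01]
      linear_combination (m00 * m11 - m01 * m10) * hxw
    have hqZ : (q : ℤ) ≠ 0 := by exact_mod_cast hq.ne_zero
    have hdet1' : n00 * r11 - n01 * r10 = (q : ℤ) ^ (2 * k + 1) := by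
      have : (q : ℤ) ^ (2 * k + 2) = (q : ℤ) * (q : ℤ) ^ (2 * k + 1) := by ring
      rw [this] at hdet1
      exact mul_left_cancel₀ hqZ hdet1
    have hdetB : (q : ℤ) ∣ n00 * r11 - n01 * r10 := by
      rw [hdet1']; exact dvd_pow_self _ (by omega)
    -- step B
    obtain ⟨x1, y1, z1, w1, hxw1, hNy1, ⟨p00, hp00⟩, ⟨p01, hp01⟩⟩ :=
      exists_stepB hq hqN n00 n01 r10 r11 hdetB
    -- the two group elements (inverses of `a` and `b`)
    have hxwQ : (w : ℚ) * x - (-z) * (-y) = 1 := by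
      have : ((x * w - z * y : ℤ) : ℚ) = 1 := by exact_mod_cast hxw
      push_cast at this
      linarith
    have hxw1Q : (w1 : ℚ) * x1 - (-(z1 : ℚ) / q) * (-((q : ℚ) * y1)) = 1 := by
      have : ((x1 * w1 - z1 * y1 : ℤ) : ℚ) = 1 := by exact_mod_cast hxw1
      push_cast at this
      field_simp
      linarith
    set ainv : SL(2, ℚ) := mk w (-z) (-y) x hxwQ with hainv
    set binv : SL(2, ℚ) := mk w1 (-(z1 : ℚ) / q) (-((q : ℚ) * y1)) x1 hxw1Q with hbinv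
    have hainvS : ainv ∈ S := by
      refine hA ainv w (-z) (-y) x ?_ ?_ ?_ ?_ ((dvd_neg).mpr hNy)
      · simp [hainv]
      · simp [hainv]
      · simp [hainv]
      · simp [hainv]
    have hbinvS : binv ∈ S := by
      refine hB binv w1 (-z1) (-y1) x1 ?_ ?_ ?_ ?_ ((dvd_neg).mpr hNy1)
      · simp [hbinv]
      · simp [hbinv]
      · simp [hbinv]
      · simp [hbinv]
    -- the reduced element
    set g' : SL(2, ℚ) := binv * (ainv * g) with hg'
    have hr10Q : (r10 : ℚ) = ((x : ℚ) * m10 - y * m00) / q := by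
      rw [eq_div_iff hq0]
      have : ((x * m10 - y * m00 : ℤ) : ℚ) = ((q : ℤ) * r10 : ℤ) := by exact_mod_cast hr10
      push_cast at this
      linarith
    have hr11Q : (r11 : ℚ) = ((x : ℚ) * m11 - y * m01) / q := by
      rw [eq_div_iff hq0]
      have : ((x * m11 - y * m01 : ℤ) : ℚ) = ((q : ℤ) * r11 : ℤ) := by exact_mod_cast hr11
      push_cast at this
      linarith
    have hp00Q : (p00 : ℚ) = ((w1 : ℚ) * n00 - z1 * r10) / q := by
      rw [eq_div_iff hq0]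
      have : ((w1 * n00 - z1 * r10 : ℤ) : ℚ) = ((q : ℤ) * p00 : ℤ) := by exact_mod_cast hp00
      push_cast at this
      linarith
    have hp01Q : (p01 : ℚ) = ((w1 : ℚ) * n01 - z1 * r11) / q := by
      rw [eq_div_iff hq0]
      have : ((w1 * n01 - z1 * r11 : ℤ) : ℚ) = ((q : ℤ) * p01 : ℤ) := by exact_mod_cast hp01
      push_cast at this
      linarith
    have hn00Q : (n00 : ℚ) = (w : ℚ) * m00 - z * m10 := by rw [hn00]; push_cast; ring
    have hn01Q : (n01 : ℚ) = (w : ℚ) * m01 - z * m11 := by rw [hn01]; push_cast; ring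
    have hrep' : Rep q k g' p00 p01 (-y1 * n00 + x1 * r10) (-y1 * n01 + x1 * r11) := by
      refine ⟨?_, ?_, ?_, ?_⟩
      · rw [hg', mul_00, mul_00, mul_10, hp00Q, hr10Q, hn00Q, e00, e10]
        simp only [hbinv, hainv, mk_00, mk_01, mk_10, mk_11]
        field_simp
        ring
      · rw [hg', mul_01, mul_01, mul_11, hp01Q, hr11Q, hn01Q, e01, e11]
        simp only [hbinv, hainv, mk_00, mk_01, mk_10, mk_11]
        field_simp
        ring
      · rw [hg', mul_10, mul_00, mul_10, e00, e10]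
        push_cast
        rw [hr10Q, hn00Q]
        simp only [hbinv, hainv, mk_00, mk_01, mk_10, mk_11]
        field_simp
        ring
      · rw [hg', mul_11, mul_01, mul_11, e01, e11]
        push_cast
        rw [hr11Q, hn01Q]
        simp only [hbinv, hainv, mk_00, mk_01, mk_10, mk_11]
        field_simp
        ring
    have hNr10 : (N : ℤ) ∣ r10 := by
      have h1 : (N : ℤ) ∣ (q : ℤ) * r10 := by
        rw [← hr10]
        exact dvd_sub (Dvd.dvd.mul_left hN _) (Dvd.dvd.mul_right hNy _)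
      exact hcop.dvd_of_dvd_mul_left h1
    have hN' : (N : ℤ) ∣ -y1 * n00 + x1 * r10 :=
      dvd_add (Dvd.dvd.mul_right ((dvd_neg).mpr hNy1) _) (Dvd.dvd.mul_left hNr10 _)
    have hg'S : g' ∈ S := ih g' _ _ _ _ hrep' hN'
    have hg : g = ainv⁻¹ * (binv⁻¹ * g') := by
      rw [hg']; group
    rw [hg]
    exact S.mul_mem (S.inv_mem hainvS) (S.mul_mem (S.inv_mem hbinvS) hg'S)

end Fermat.Agent.S41.Amalg.GenCore
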