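/-
S41 / Amalgam (L3a): GENERATION of `Γ₀(N)(ℤ[1/q])` (= `Menn.GG q _ N ≤ SL(2, ℚ)`) by its `A`-type elements
(integral matrices, `N ∣ c`) and its `B`-type elements (`[[a, b/q], [q c, d]]`, `a b c d ∈ ℤ`, `N ∣ c`),
on top of the core `GenCore.mem_of_rep`.

* `exists_rep`      : common denominator for a matrix with entries in `ℤ[1/q]`, `c ∈ N ℤ[1/q]`;
* `exists_rep_of_mem_GG` : the same for `g ∈ Menn.GG q _ N`;
* `GG_le`, `GG_le_sup` : `Menn.GG q _ N ≤ S` for every subgroup `S` containing the `A`- and `B`-type matrices;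
* `sup_eq_top`      : for subgroups `AA BB` of `↥(Menn.GG q _ N)` containing the `A`- resp. `B`-type elements,
  `AA ⊔ BB = ⊤` (the hypothesis `hgen` of `GluePush.exists_glue_of_nf` / `Glue.exists_glue`).
-/
import Fermat.Agent.S41.Amalg.GenCore
import Fermat.Agent.S41.Menn.Basic

set_option autoImplicit false

namespace Fermat.Agent.S41.Amalg.Generate

open scoped MatrixGroups
open Fermat.Agent.S41.Amalg.GenCore

/-- raising the denominator exponent -/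
theorem exists_int_of_le {q : ℕ} {x : ℚ} {k : ℕ} {z : ℤ} (h : x * (q : ℚ) ^ k = z) {K : ℕ}
    (hK : k ≤ K) : (q : ℚ) ^ K * x = ((z * (q : ℤ) ^ (K - k) : ℤ) : ℚ) := by
  obtain ⟨d, rfl⟩ := Nat.exists_eq_add_of_le hK
  rw [Nat.add_sub_cancel_left]
  push_cast
  rw [← h]
  ring

/-- common denominator: an element of `SL(2, ℚ)` with entries in `ℤ[1/q]` and lower-left entry in
`N ℤ[1/q]` has a representation `Rep` with lower-left integral entry divisible by `N`. -/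
theorem exists_rep {N q : ℕ} (g : SL(2, ℚ))
    (h : ∀ i j, ∃ (k : ℕ) (z : ℤ), g i j * (q : ℚ) ^ k = z)
    (t : ℚ) (ht : ∃ (k : ℕ) (z : ℤ), t * (q : ℚ) ^ k = z) (hg : g 1 0 = (N : ℚ) * t) :
    ∃ (k : ℕ) (m00 m01 m10 m11 : ℤ), Rep q k g m00 m01 m10 m11 ∧ (N : ℤ) ∣ m10 := by
  obtain ⟨k00, z00, h00⟩ := h 0 0
  obtain ⟨k01, z01, h01⟩ := h 0 1
  obtain ⟨k11, z11, h11⟩ := h 1 1
  obtain ⟨kt, zt, hzt⟩ := ht
  refine ⟨k00 + k01 + k11 + kt, _, _, (N : ℤ) * (zt * (q : ℤ) ^ (k00 + k01 + k11 + kt - kt)), _,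
    ⟨exists_int_of_le h00 (by omega), exists_int_of_le h01 (by omega), ?_,
      exists_int_of_le h11 (by omega)⟩, Dvd.intro _ rfl⟩
  rw [hg]
  have := exists_int_of_le (q := q) hzt (K := k00 + k01 + k11 + kt) (by omega)
  push_cast at this ⊢
  rw [← this]
  ring

theorem int_of_AQm {q : ℕ} (hq0 : 0 < q) {M : ℤ} {x : ℚ} (hx : Menn.AQm q M x) :
    ∃ (k : ℕ) (z : ℤ), x * (q : ℚ) ^ k = z := by
  obtain ⟨n, k, rfl⟩ := hx
  refine ⟨k, M * n, ?_⟩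
  have : ((q : ℚ) ^ k) ≠ 0 := pow_ne_zero _ (by exact_mod_cast hq0.ne')
  field_simp

/-- common denominator for an element of `Γ₀(N)(ℤ[1/q])`. -/
theorem exists_rep_of_mem_GG {q : ℕ} (hq0 : 0 < q) {N : ℕ} {g : SL(2, ℚ)}
    (hg : g ∈ Menn.GG q hq0 (N : ℤ)) :
    ∃ (k : ℕ) (m00 m01 m10 m11 : ℤ), Rep q k g m00 m01 m10 m11 ∧ (N : ℤ) ∣ m10 := by
  obtain ⟨h00, h01, h10, h11⟩ := hg
  obtain ⟨n, k, hnk⟩ := h10
  refine exists_rep g ?_ ((n : ℚ) / (q : ℚ) ^ k) ⟨k, n, ?_⟩ ?_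
  · intro i j
    fin_cases i <;> fin_cases j
    · exact int_of_AQm hq0 h00
    · exact int_of_AQm hq0 h01
    · exact int_of_AQm hq0 ⟨n, k, hnk⟩
    · exact int_of_AQm hq0 h11
  · have : ((q : ℚ) ^ k) ≠ 0 := pow_ne_zero _ (by exact_mod_cast hq0.ne')
    field_simp
  · rw [hnk]
    push_cast
    ring

/-- **Generation, ambient form.** Every subgroup of `SL(2, ℚ)` containing the `A`-type and the
`B`-type matrices contains `Γ₀(N)(ℤ[1/q])`. -/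
theorem GG_le {N q : ℕ} (hq : q.Prime) (hqN : ¬ q ∣ N) (S : Subgroup SL(2, ℚ))
    (hA : ∀ (g : SL(2, ℚ)) (a b c d : ℤ), g 0 0 = a → g 0 1 = b → g 1 0 = c → g 1 1 = d →
      (N : ℤ) ∣ c → g ∈ S)
    (hB : ∀ (g : SL(2, ℚ)) (a b c d : ℤ), g 0 0 = a → g 0 1 = (b : ℚ) / q → g 1 0 = (q : ℚ) * c →
      g 1 1 = d → (N : ℤ) ∣ c → g ∈ S) :
    Menn.GG q hq.pos (N : ℤ) ≤ S := by
  intro g hg
  obtain ⟨k, m00, m01, m10, m11, hrep, hN⟩ := exists_rep_of_mem_GG hq.pos hg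
  exact mem_of_rep hq hqN S hA hB k g m00 m01 m10 m11 hrep hN

/-- `A`-type matrices lie in `Γ₀(N)(ℤ[1/q])`. -/
theorem mem_GG_of_A {q : ℕ} (hq0 : 0 < q) {N : ℕ} (g : SL(2, ℚ)) (a b c d : ℤ) (h00 : g 0 0 = a)
    (h01 : g 0 1 = b) (h10 : g 1 0 = c) (h11 : g 1 1 = d) (hN : (N : ℤ) ∣ c) :
    g ∈ Menn.GG q hq0 (N : ℤ) := by
  obtain ⟨c', rfl⟩ := hN
  refine ⟨⟨a, 0, ?_⟩, ⟨b, 0, ?_⟩, ⟨c', 0, ?_⟩, ⟨d, 0, ?_⟩⟩
  · change g 0 0 = _; rw [h00]; simp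
  · change g 0 1 = _; rw [h01]; simp
  · change g 1 0 = _; rw [h10]; simp
  · change g 1 1 = _; rw [h11]; simp

/-- `B`-type matrices lie in `Γ₀(N)(ℤ[1/q])`. -/
theorem mem_GG_of_B {q : ℕ} (hq0 : 0 < q) {N : ℕ} (g : SL(2, ℚ)) (a b c d : ℤ) (h00 : g 0 0 = a)
    (h01 : g 0 1 = (b : ℚ) / q) (h10 : g 1 0 = (q : ℚ) * c) (h11 : g 1 1 = d) (hN : (N : ℤ) ∣ c) :
    g ∈ Menn.GG q hq0 (N : ℤ) := by
  obtain ⟨c', rfl⟩ := hN
  refine ⟨⟨a, 0, ?_⟩, ⟨b, 1, ?_⟩, ⟨q * c', 0, ?_⟩, ⟨d, 0, ?_⟩⟩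
  · change g 0 0 = _; rw [h00]; simp
  · change g 0 1 = _; rw [h01]; simp
  · change g 1 0 = _; rw [h10]; push_cast; ring
  · change g 1 1 = _; rw [h11]; simp

/-- **Generation, `⊔` form in the ambient group.** -/
theorem GG_le_sup {N q : ℕ} (hq : q.Prime) (hqN : ¬ q ∣ N) (AA BB : Subgroup SL(2, ℚ))
    (hA : ∀ (g : SL(2, ℚ)) (a b c d : ℤ), g 0 0 = a → g 0 1 = b → g 1 0 = c → g 1 1 = d →
      (N : ℤ) ∣ c → g ∈ AA)
    (hB : ∀ (g : SL(2, ℚ)) (a b c d : ℤ), g 0 0 = a → g 0 1 = (b : ℚ) / q → g 1 0 = (q : ℚ) * c →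
      g 1 1 = d → (N : ℤ) ∣ c → g ∈ BB) :
    Menn.GG q hq.pos (N : ℤ) ≤ AA ⊔ BB :=
  GG_le hq hqN (AA ⊔ BB)
    (fun g a b c d h0 h1 h2 h3 hN => Subgroup.mem_sup_left (hA g a b c d h0 h1 h2 h3 hN))
    (fun g a b c d h0 h1 h2 h3 hN => Subgroup.mem_sup_right (hB g a b c d h0 h1 h2 h3 hN))

/-- **Generation inside `Γ₀(N)(ℤ[1/q])`**: subgroups `AA`, `BB` of `↥(Menn.GG q _ N)` containing the
`A`-type resp. the `B`-type elements generate everything. -/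
theorem sup_eq_top {N q : ℕ} (hq : q.Prime) (hqN : ¬ q ∣ N)
    (AA BB : Subgroup ↥(Menn.GG q hq.pos (N : ℤ)))
    (hA : ∀ (g : ↥(Menn.GG q hq.pos (N : ℤ))) (a b c d : ℤ), g.1 0 0 = a → g.1 0 1 = b →
      g.1 1 0 = c → g.1 1 1 = d → (N : ℤ) ∣ c → g ∈ AA)
    (hB : ∀ (g : ↥(Menn.GG q hq.pos (N : ℤ))) (a b c d : ℤ), g.1 0 0 = a →
      g.1 0 1 = (b : ℚ) / q → g.1 1 0 = (q : ℚ) * c → g.1 1 1 = d → (N : ℤ) ∣ c → g ∈ BB) :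
    AA ⊔ BB = ⊤ := by
  rw [eq_top_iff]
  rintro ⟨g, hg⟩ -
  have key : Menn.GG q hq.pos (N : ℤ) ≤ (AA ⊔ BB).map (Menn.GG q hq.pos (N : ℤ)).subtype := by
    refine GG_le hq hqN _ ?_ ?_
    · intro g a b c d h0 h1 h2 h3 hN
      have hgG := mem_GG_of_A hq.pos g a b c d h0 h1 h2 h3 hN
      exact ⟨⟨g, hgG⟩, Subgroup.mem_sup_left (hA ⟨g, hgG⟩ a b c d h0 h1 h2 h3 hN), rfl⟩
    · intro g a b c d h0 h1 h2 h3 hN
      have hgG := mem_GG_of_B hq.pos g a b c d h0 h1 h2 h3 hN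
      exact ⟨⟨g, hgG⟩, Subgroup.mem_sup_right (hB ⟨g, hgG⟩ a b c d h0 h1 h2 h3 hN), rfl⟩
  obtain ⟨x, hx, hxg⟩ := key hg
  have : x = ⟨g, hg⟩ := Subtype.ext hxg
  rw [← this]
  exact hx

end Fermat.Agent.S41.Amalg.Generate
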