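/-
S41 / Amalgam (L3a): GENERATION in the concrete setting of `Amalg/Defs.lean`:
`Defs.AA N q ⊔ Defs.BB N q = ⊤` in `↥(Defs.GG N q)` for `q` prime, `q ∤ N`
(= hypothesis `hgen` of `GluePush.exists_glue_of_nf` / `Glue.exists_glue`), from `GenCore.mem_of_rep`.
-/
import Fermat.Agent.S41.Amalg.Generate
import Fermat.Agent.S41.Amalg.Defs

set_option autoImplicit false

namespace Fermat.Agent.S41.Amalg.GenerateD

open Matrix MatrixGroups CongruenceSubgroup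
open Fermat.Agent.S41.Amalg.GenCore Fermat.Agent.S41.Amalg.Generate Fermat.Agent.S41.Amalg

/-- an integral matrix of `SL(2, ℚ)` with `N ∣ c` is `iA` of an element of `Γ₀(N)`. -/
theorem exists_iA_eq {N q : ℕ} (g : SL(2, ℚ)) (a b c d : ℤ) (h00 : g 0 0 = a) (h01 : g 0 1 = b)
    (h10 : g 1 0 = c) (h11 : g 1 1 = d) (hN : (N : ℤ) ∣ c) :
    ∃ γ : Gamma0 N, ((Defs.iA N q γ : Defs.GG N q) : SL(2, ℚ)) = g := by
  have hdet : a * d - b * c = 1 := by
    have := GenCore.det_eq_one g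
    rw [h00, h01, h10, h11] at this
    exact_mod_cast this
  let γ0 : SL(2, ℤ) := ⟨!![a, b; c, d], by rw [Matrix.det_fin_two_of]; exact hdet⟩
  have hγ0 : γ0 ∈ Gamma0 N := Defs.mem_Gamma0_of_dvd (by simpa [γ0] using hN)
  refine ⟨⟨γ0, hγ0⟩, ?_⟩
  apply Subtype.ext
  ext i j
  rw [Defs.iA_apply]
  fin_cases i <;> fin_cases j
  · simpa [γ0] using h00.symm
  · simpa [γ0] using h01.symm
  · simpa [γ0] using h10.symm
  · simpa [γ0] using h11.symm

/-- a matrix `[[a, b/q], [q c, d]]` of `SL(2, ℚ)` with `N ∣ c` is `iB` of an element of `Γ₀(N)`. -/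
theorem exists_iB_eq {N q : ℕ} [NeZero q] (g : SL(2, ℚ)) (a b c d : ℤ) (h00 : g 0 0 = a)
    (h01 : g 0 1 = (b : ℚ) / q) (h10 : g 1 0 = (q : ℚ) * c) (h11 : g 1 1 = d) (hN : (N : ℤ) ∣ c) :
    ∃ γ : Gamma0 N, ((Defs.iB N q γ : Defs.GG N q) : SL(2, ℚ)) = g := by
  have hq0 : (q : ℚ) ≠ 0 := Nat.cast_ne_zero.mpr (NeZero.ne q)
  have hdet : a * d - b * c = 1 := by
    have := GenCore.det_eq_one g
    rw [h00, h01, h10, h11] at this
    have h2 : (a : ℚ) * d - b * c = 1 := by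
      rw [← this]
      field_simp
    exact_mod_cast h2
  let γ0 : SL(2, ℤ) := ⟨!![a, b; c, d], by rw [Matrix.det_fin_two_of]; exact hdet⟩
  have hγ0 : γ0 ∈ Gamma0 N := Defs.mem_Gamma0_of_dvd (by simpa [γ0] using hN)
  refine ⟨⟨γ0, hγ0⟩, ?_⟩
  apply Subtype.ext
  ext i j
  rw [Defs.iB_matrix]
  fin_cases i <;> fin_cases j
  · simpa [γ0] using h00.symm
  · simpa [γ0] using h01.symm
  · simpa [γ0] using h10.symm
  · simpa [γ0] using h11.symm

/-- **Generation**: `Γ₀(N)[1/q]` is generated by the two copies of `Γ₀(N)`. -/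
theorem AA_sup_BB_eq_top {N q : ℕ} [NeZero q] (hq : q.Prime) (hqN : ¬ q ∣ N) :
    Defs.AA N q ⊔ Defs.BB N q = ⊤ := by
  rw [eq_top_iff]
  rintro ⟨g, hg⟩ -
  have key : g ∈ (Defs.AA N q ⊔ Defs.BB N q).map (Defs.GG N q).subtype := by
    obtain ⟨hent, t, ht, hgt⟩ := hg
    obtain ⟨k, m00, m01, m10, m11, hrep, hN⟩ :=
      exists_rep (N := N) (q := q) g (fun i j => hent i j) t ht hgt
    refine mem_of_rep hq hqN _ ?_ ?_ k g m00 m01 m10 m11 hrep hN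
    · intro g' a b c d h0 h1 h2 h3 hNc
      obtain ⟨γ, hγ⟩ := exists_iA_eq (N := N) (q := q) g' a b c d h0 h1 h2 h3 hNc
      exact ⟨Defs.iA N q γ, Subgroup.mem_sup_left (Defs.iA_mem_AA N q γ), hγ⟩
    · intro g' a b c d h0 h1 h2 h3 hNc
      obtain ⟨γ, hγ⟩ := exists_iB_eq (N := N) (q := q) g' a b c d h0 h1 h2 h3 hNc
      exact ⟨Defs.iB N q γ, Subgroup.mem_sup_right (Defs.iB_mem_BB N q γ), hγ⟩
  obtain ⟨x, hx, hxg⟩ := key
  have : x = ⟨g, hg⟩ := Subtype.ext hxg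
  rw [← this]
  exact hx

end Fermat.Agent.S41.Amalg.GenerateD
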