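/-
S41 / L3a (amalgam), file (G): abstract gluing of two homomorphisms from the normal form.

`G` a group, `H1 H2 ≤ G`.  If every nonempty alternating word in `H1 \ H2` and `H2 \ H1`
has product `≠ 1` (hypothesis `NFHyp`), then `H1 ⊔ H2` is the amalgamated product of `H1` and `H2`
over `H1 ⊓ H2`; in particular two homomorphisms `f1 : H1 →* A`, `f2 : H2 →* A` agreeing on
`H1 ⊓ H2` glue to a homomorphism on `H1 ⊔ H2` (`exists_glue`).
Mathlib only (`Monoid.PushoutI`, `NormalWord.equiv`).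
-/
import Mathlib

namespace Fermat.Agent.S41.Amalg.GluePush

open Monoid

variable {G : Type*} [Group G]

/-- the two factors, indexed by `Bool`: `false ↦ H1`, `true ↦ H2`. -/
def sideSubgroup (H1 H2 : Subgroup G) (b : Bool) : Subgroup G := cond b H2 H1

/-- **Normal form hypothesis** (list form): a nonempty alternating word with letters in
`H1 \ H2` (flag `false`) and `H2 \ H1` (flag `true`) has product `≠ 1`. -/
def NFHyp (H1 H2 : Subgroup G) : Prop :=
  ∀ L : List (Bool × G), L ≠ [] → L.IsChain (fun a b => a.1 ≠ b.1) →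
    (∀ a ∈ L, a.1 = false → a.2 ∈ H1 ∧ a.2 ∉ H2) →
    (∀ a ∈ L, a.1 = true → a.2 ∈ H2 ∧ a.2 ∉ H1) →
    (L.map Prod.snd).prod ≠ 1

section

variable (H1 H2 : Subgroup G)

theorem inf_le_sideSubgroup (b : Bool) : H1 ⊓ H2 ≤ sideSubgroup H1 H2 b := by
  cases b
  · exact inf_le_left
  · exact inf_le_right

/-- the inclusions of the base `H1 ⊓ H2` into the two factors. -/
def baseIncl (b : Bool) : ↥(H1 ⊓ H2) →* ↥(sideSubgroup H1 H2 b) :=
  Subgroup.inclusion (inf_le_sideSubgroup H1 H2 b)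

theorem baseIncl_injective (b : Bool) : Function.Injective (baseIncl H1 H2 b) :=
  Subgroup.inclusion_injective _

@[simp] theorem baseIncl_coe (b : Bool) (x : ↥(H1 ⊓ H2)) :
    ((baseIncl H1 H2 b x : ↥(sideSubgroup H1 H2 b)) : G) = (x : G) := rfl

/-- the abstract amalgam `H1 *_{H1 ⊓ H2} H2`. -/
abbrev Amalgam : Type _ := PushoutI (baseIncl H1 H2)

/-- the natural map from the abstract amalgam to the ambient group. -/
def toAmbient : Amalgam H1 H2 →* G :=
  PushoutI.lift (fun b => (sideSubgroup H1 H2 b).subtype) (H1 ⊓ H2).subtype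
    (fun b => by ext x; rfl)

@[simp] theorem toAmbient_of (b : Bool) (x : ↥(sideSubgroup H1 H2 b)) :
    toAmbient H1 H2 (PushoutI.of b x) = (x : G) := by
  simp [toAmbient]

@[simp] theorem toAmbient_base (x : ↥(H1 ⊓ H2)) :
    toAmbient H1 H2 (PushoutI.base (baseIncl H1 H2) x) = (x : G) := by
  simp [toAmbient]

/-- the ambient letter of a letter of a word. -/
def letterG (l : Σ b : Bool, ↥(sideSubgroup H1 H2 b)) : Bool × G := (l.1, (l.2 : G))

theorem toAmbient_word_prod (W : CoprodI.Word (fun b : Bool => ↥(sideSubgroup H1 H2 b))) :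
    toAmbient H1 H2 (PushoutI.ofCoprodI W.prod) =
      ((W.toList.map (letterG H1 H2)).map Prod.snd).prod := by
  unfold CoprodI.Word.prod
  rw [map_list_prod, map_list_prod, List.map_map, List.map_map, List.map_map]
  rfl

/-- a letter of a normal word is not in the base. -/
theorem letter_not_mem_inf {d : PushoutI.NormalWord.Transversal (baseIncl H1 H2)}
    (w : PushoutI.NormalWord d) (l : Σ b : Bool, ↥(sideSubgroup H1 H2 b)) (hl : l ∈ w.toList) :
    ((l.2 : ↥(sideSubgroup H1 H2 l.1)) : G) ∉ H1 ⊓ H2 := by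
  intro hmem
  obtain ⟨b, g⟩ := l
  have hne : g ≠ 1 := w.ne_one _ hl
  have hset : g ∈ d.set b := w.normalized b g hl
  have hrange : g ∈ (baseIncl H1 H2 b).range := ⟨⟨(g : G), hmem⟩, Subtype.ext rfl⟩
  have hinj := (d.compl b).1
  have h2 : ((⟨g, hrange⟩, ⟨1, d.one_mem b⟩) :
      ↥(baseIncl H1 H2 b).range × ↥(d.set b)) = (⟨1, one_mem _⟩, ⟨g, hset⟩) := by
    apply hinj
    simp
  have h3 : (1 : ↥(sideSubgroup H1 H2 b)) = g := by
    have := congrArg (fun x : ↥(baseIncl H1 H2 b).range × ↥(d.set b) => (x.2 : ↥(sideSubgroup H1 H2 b))) h2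
    simpa using this
  exact hne h3.symm

/-- membership facts for a letter of a normal word, in `NFHyp` form. -/
theorem letter_side {d : PushoutI.NormalWord.Transversal (baseIncl H1 H2)}
    (w : PushoutI.NormalWord d) (l : Σ b : Bool, ↥(sideSubgroup H1 H2 b)) (hl : l ∈ w.toList) :
    (l.1 = false → (l.2 : G) ∈ H1 ∧ (l.2 : G) ∉ H2) ∧
    (l.1 = true → (l.2 : G) ∈ H2 ∧ (l.2 : G) ∉ H1) := by
  have hnot := letter_not_mem_inf H1 H2 w l hl
  obtain ⟨b, g⟩ := l
  have hg : (g : G) ∈ sideSubgroup H1 H2 b := g.2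
  cases b
  · refine ⟨fun _ => ⟨hg, fun h2 => hnot ⟨hg, h2⟩⟩, fun h => by cases h⟩
  · refine ⟨fun h => (by cases h), fun _ => ⟨hg, fun h1 => hnot ⟨h1, hg⟩⟩⟩

/-- **Injectivity of the natural map from the abstract amalgam**, from the normal form
hypothesis. -/
theorem toAmbient_injective (hNF : NFHyp H1 H2) : Function.Injective (toAmbient H1 H2) := by
  classical
  rw [injective_iff_map_eq_one]
  intro x hx
  obtain ⟨d⟩ := PushoutI.NormalWord.transversal_nonempty (baseIncl H1 H2) (baseIncl_injective H1 H2)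
  set w : PushoutI.NormalWord d := PushoutI.NormalWord.equiv x with hw
  have hxw : x = w.prod := (PushoutI.NormalWord.equiv.symm_apply_apply x).symm
  rw [hxw, PushoutI.NormalWord.prod, map_mul, toAmbient_base, toAmbient_word_prod] at hx
  rcases hlist : w.toList with _ | ⟨l, T⟩
  · -- empty word: the head is `1`
    rw [hlist] at hx
    simp only [List.map_nil, List.prod_nil, mul_one] at hx
    have hhead : w.head = 1 := Subtype.ext hx
    have hword : w.toWord.prod = 1 := by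
      unfold CoprodI.Word.prod
      rw [hlist]
      rfl
    rw [hxw, PushoutI.NormalWord.prod, hhead, hword, map_one, map_one, mul_one]
  · -- nonempty word: contradiction with the normal form hypothesis
    exfalso
    rw [hlist] at hx
    have hl : l ∈ w.toList := by rw [hlist]; exact List.mem_cons_self
    have hT : ∀ a ∈ T, a ∈ w.toList := fun a ha => by rw [hlist]; exact List.mem_cons_of_mem _ ha
    have hchain := w.chain_ne
    rw [hlist] at hchain
    have hhead1 : (w.head : G) ∈ H1 := w.head.2.1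
    have hhead2 : (w.head : G) ∈ H2 := w.head.2.2
    refine hNF ((l.1, (w.head : G) * (l.2 : G)) :: T.map (letterG H1 H2)) (List.cons_ne_nil _ _)
      ?_ ?_ ?_ ?_
    · rw [List.isChain_cons] at hchain ⊢
      refine ⟨?_, (List.isChain_map _).mpr hchain.2⟩
      intro y hy
      rw [List.head?_map] at hy
      obtain ⟨y', hy', rfl⟩ := Option.map_eq_some_iff.mp hy
      exact hchain.1 y' hy'
    · intro a ha hfa
      rcases List.mem_cons.mp ha with rfl | ha
      · have := (letter_side H1 H2 w l hl).1 hfa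
        exact ⟨H1.mul_mem hhead1 this.1, fun h => this.2 ((H2.mul_mem_cancel_left hhead2).mp h)⟩
      · obtain ⟨a', ha', rfl⟩ := List.mem_map.mp ha
        exact (letter_side H1 H2 w a' (hT a' ha')).1 hfa
    · intro a ha hfa
      rcases List.mem_cons.mp ha with rfl | ha
      · have := (letter_side H1 H2 w l hl).2 hfa
        exact ⟨H2.mul_mem hhead2 this.1, fun h => this.2 ((H1.mul_mem_cancel_left hhead1).mp h)⟩
      · obtain ⟨a', ha', rfl⟩ := List.mem_map.mp ha
        exact (letter_side H1 H2 w a' (hT a' ha')).2 hfa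
    · simpa [letterG, mul_assoc] using hx

theorem le_range_toAmbient : H1 ⊔ H2 ≤ (toAmbient H1 H2).range := by
  refine sup_le ?_ ?_
  · intro g hg
    exact ⟨PushoutI.of (φ := baseIncl H1 H2) false ⟨g, hg⟩, toAmbient_of H1 H2 false ⟨g, hg⟩⟩
  · intro g hg
    exact ⟨PushoutI.of (φ := baseIncl H1 H2) true ⟨g, hg⟩, toAmbient_of H1 H2 true ⟨g, hg⟩⟩

theorem range_toAmbient : (toAmbient H1 H2).range = H1 ⊔ H2 := by
  refine le_antisymm ?_ (le_range_toAmbient H1 H2)
  rintro _ ⟨x, rfl⟩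
  induction x using PushoutI.induction_on with
  | of b g =>
    rw [toAmbient_of]
    cases b
    · exact Subgroup.mem_sup_left g.2
    · exact Subgroup.mem_sup_right g.2
  | base h =>
    rw [toAmbient_base]
    exact Subgroup.mem_sup_left h.2.1
  | mul x y hx hy =>
    rw [map_mul]
    exact mul_mem hx hy

variable {H1 H2}
variable {A : Type*} [Monoid A]

/-- the family of the two homomorphisms. -/
def famHom (f1 : ↥H1 →* A) (f2 : ↥H2 →* A) : ∀ b : Bool, ↥(sideSubgroup H1 H2 b) →* A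
  | false => f1
  | true => f2

/-- the glued homomorphism on the abstract amalgam. -/
def glueAmalgam (f1 : ↥H1 →* A) (f2 : ↥H2 →* A)
    (hc : ∀ g (h1 : g ∈ H1) (h2 : g ∈ H2), f1 ⟨g, h1⟩ = f2 ⟨g, h2⟩) : Amalgam H1 H2 →* A :=
  PushoutI.lift (famHom f1 f2) (f1.comp (Subgroup.inclusion inf_le_left)) (fun b => by
    ext x
    cases b
    · rfl
    · exact (hc (x : G) x.2.1 x.2.2).symm)

/-- **Gluing**: under the normal form hypothesis, two homomorphisms on `H1` and `H2` that agree on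
`H1 ⊓ H2` extend (uniquely) to a homomorphism on `H1 ⊔ H2`. -/
theorem exists_glue (hNF : NFHyp H1 H2) (f1 : ↥H1 →* A) (f2 : ↥H2 →* A)
    (hc : ∀ g (h1 : g ∈ H1) (h2 : g ∈ H2), f1 ⟨g, h1⟩ = f2 ⟨g, h2⟩) :
    ∃ Φ : ↥(H1 ⊔ H2) →* A,
      (∀ g (h : g ∈ H1), Φ ⟨g, Subgroup.mem_sup_left h⟩ = f1 ⟨g, h⟩) ∧
      (∀ g (h : g ∈ H2), Φ ⟨g, Subgroup.mem_sup_right h⟩ = f2 ⟨g, h⟩) := by
  have hinj := toAmbient_injective H1 H2 hNF
  let e := MonoidHom.ofInjective hinj
  refine ⟨((glueAmalgam f1 f2 hc).comp e.symm.toMonoidHom).comp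
    (Subgroup.inclusion (le_range_toAmbient H1 H2)), ?_, ?_⟩
  · intro g h
    have h1 : (Subgroup.inclusion (le_range_toAmbient H1 H2) ⟨g, Subgroup.mem_sup_left h⟩) =
        e (PushoutI.of (φ := baseIncl H1 H2) false ⟨g, h⟩) := by
      apply Subtype.ext
      simp [e, MonoidHom.ofInjective_apply]
    simp only [MonoidHom.coe_comp, Function.comp_apply, MulEquiv.coe_toMonoidHom, h1,
      MulEquiv.symm_apply_apply]
    rw [glueAmalgam, PushoutI.lift_of]
    rfl
  · intro g h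
    have h1 : (Subgroup.inclusion (le_range_toAmbient H1 H2) ⟨g, Subgroup.mem_sup_right h⟩) =
        e (PushoutI.of (φ := baseIncl H1 H2) true ⟨g, h⟩) := by
      apply Subtype.ext
      simp [e, MonoidHom.ofInjective_apply]
    simp only [MonoidHom.coe_comp, Function.comp_apply, MulEquiv.coe_toMonoidHom, h1,
      MulEquiv.symm_apply_apply]
    rw [glueAmalgam, PushoutI.lift_of]
    rfl

/-- `H1 ⊔ H2` *is* the amalgamated product, under the normal form hypothesis. -/
noncomputable def amalgamEquiv (hNF : NFHyp H1 H2) : Amalgam H1 H2 ≃* ↥(H1 ⊔ H2) :=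
  (MonoidHom.ofInjective (toAmbient_injective H1 H2 hNF)).trans
    (MulEquiv.subgroupCongr (range_toAmbient H1 H2))

@[simp] theorem amalgamEquiv_coe (hNF : NFHyp H1 H2) (x : Amalgam H1 H2) :
    ((amalgamEquiv hNF x : ↥(H1 ⊔ H2)) : G) = toAmbient H1 H2 x := rfl

/-- uniqueness of the glued homomorphism. -/
theorem glue_unique (hNF : NFHyp H1 H2) {Φ Ψ : ↥(H1 ⊔ H2) →* A}
    (h1 : ∀ g (h : g ∈ H1), Φ ⟨g, Subgroup.mem_sup_left h⟩ = Ψ ⟨g, Subgroup.mem_sup_left h⟩)
    (h2 : ∀ g (h : g ∈ H2), Φ ⟨g, Subgroup.mem_sup_right h⟩ = Ψ ⟨g, Subgroup.mem_sup_right h⟩) :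
    Φ = Ψ := by
  have key : Φ.comp (amalgamEquiv hNF).toMonoidHom = Ψ.comp (amalgamEquiv hNF).toMonoidHom := by
    apply PushoutI.hom_ext_nonempty
    intro b
    ext g
    cases b
    · have e1 : (amalgamEquiv hNF (PushoutI.of (φ := baseIncl H1 H2) false g) : ↥(H1 ⊔ H2)) =
          ⟨(g : G), Subgroup.mem_sup_left g.2⟩ := Subtype.ext (toAmbient_of H1 H2 false g)
      change Φ (amalgamEquiv hNF (PushoutI.of (φ := baseIncl H1 H2) false g)) =
        Ψ (amalgamEquiv hNF (PushoutI.of (φ := baseIncl H1 H2) false g))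
      rw [e1]
      exact h1 _ g.2
    · have e1 : (amalgamEquiv hNF (PushoutI.of (φ := baseIncl H1 H2) true g) : ↥(H1 ⊔ H2)) =
          ⟨(g : G), Subgroup.mem_sup_right g.2⟩ := Subtype.ext (toAmbient_of H1 H2 true g)
      change Φ (amalgamEquiv hNF (PushoutI.of (φ := baseIncl H1 H2) true g)) =
        Ψ (amalgamEquiv hNF (PushoutI.of (φ := baseIncl H1 H2) true g))
      rw [e1]
      exact h2 _ g.2
  ext x
  obtain ⟨y, rfl⟩ := (amalgamEquiv hNF).surjective x
  exact DFunLike.congr_fun key y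

/-- **Gluing**, for a subgroup `K` known to be generated by `H1` and `H2`. -/
theorem exists_glue_of_sup_eq {K : Subgroup G} (hK : H1 ⊔ H2 = K) (hNF : NFHyp H1 H2)
    (f1 : ↥H1 →* A) (f2 : ↥H2 →* A)
    (hc : ∀ g (h1 : g ∈ H1) (h2 : g ∈ H2), f1 ⟨g, h1⟩ = f2 ⟨g, h2⟩) :
    ∃ Φ : ↥K →* A,
      (∀ g (h : g ∈ H1), Φ ⟨g, hK ▸ Subgroup.mem_sup_left h⟩ = f1 ⟨g, h⟩) ∧
      (∀ g (h : g ∈ H2), Φ ⟨g, hK ▸ Subgroup.mem_sup_right h⟩ = f2 ⟨g, h⟩) := by
  subst hK
  exact exists_glue hNF f1 f2 hc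

/-- **Gluing**, when `H1` and `H2` generate the whole group (shape asked by the L3a owner). -/
theorem exists_glue_of_nf (hgen : H1 ⊔ H2 = ⊤) (hNF : NFHyp H1 H2)
    (f1 : ↥H1 →* A) (f2 : ↥H2 →* A)
    (hc : ∀ g (h1 : g ∈ H1) (h2 : g ∈ H2), f1 ⟨g, h1⟩ = f2 ⟨g, h2⟩) :
    ∃ Φ : G →* A, (∀ a : ↥H1, Φ a = f1 a) ∧ (∀ b : ↥H2, Φ b = f2 b) := by
  obtain ⟨Φ, h1, h2⟩ := exists_glue_of_sup_eq hgen hNF f1 f2 hc
  refine ⟨Φ.comp (Subgroup.topEquiv (G := G)).symm.toMonoidHom, ?_, ?_⟩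
  · rintro ⟨a, ha⟩
    exact h1 a ha
  · rintro ⟨b, hb⟩
    exact h2 b hb

/-- **Gluing, additive targets**: `c1 : Additive H1 →+ B`, `c2 : Additive H2 →+ B` agreeing on
`H1 ⊓ H2` glue to `Additive K →+ B`, where `K = H1 ⊔ H2`. -/
theorem exists_glue_additive {B : Type*} [AddMonoid B] {K : Subgroup G} (hK : H1 ⊔ H2 = K)
    (hNF : NFHyp H1 H2) (c1 : Additive ↥H1 →+ B) (c2 : Additive ↥H2 →+ B)
    (hc : ∀ g (h1 : g ∈ H1) (h2 : g ∈ H2),
      c1 (Additive.ofMul ⟨g, h1⟩) = c2 (Additive.ofMul ⟨g, h2⟩)) :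
    ∃ Φ : Additive ↥K →+ B,
      (∀ g (h : g ∈ H1), Φ (Additive.ofMul ⟨g, hK ▸ Subgroup.mem_sup_left h⟩) =
        c1 (Additive.ofMul ⟨g, h⟩)) ∧
      (∀ g (h : g ∈ H2), Φ (Additive.ofMul ⟨g, hK ▸ Subgroup.mem_sup_right h⟩) =
        c2 (Additive.ofMul ⟨g, h⟩)) := by
  obtain ⟨Φ, h1, h2⟩ := exists_glue_of_sup_eq (A := Multiplicative B) hK hNF
    (AddMonoidHom.toMultiplicativeRight c1) (AddMonoidHom.toMultiplicativeRight c2)
    (fun g h1 h2 => congrArg Multiplicative.ofAdd (hc g h1 h2))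
  refine ⟨MonoidHom.toAdditiveLeft Φ, ?_, ?_⟩
  · intro g h
    exact congrArg Multiplicative.toAdd (h1 g h)
  · intro g h
    exact congrArg Multiplicative.toAdd (h2 g h)

end

end Fermat.Agent.S41.Amalg.GluePush
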