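/-
S41 / Amalg (L3a): unipotent elements of `G = Γ₀(N)(ℤ[1/q])`.

A unipotent (trace `2`) element `u` of `SL(2,ℚ)` satisfies `u ^ n = 1 + n (u - 1)`; hence for
`u ∈ GG q hq N` a `q`-power `u ^ (q ^ k)` is integral and lies in (the image of) `Γ₀(N)`, again with
trace `2`.  Consequently a hom on `GG` into a group on which `q` acts injectively kills every unipotent
element of `GG` as soon as its restriction to `Γ₀(N)` kills the elements of trace `2`.
-/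
import Fermat.Agent.S41.Menn.Basic

set_option autoImplicit false

namespace Fermat.Agent.S41.Amalg.Unip

open Matrix Fermat.Agent.S41.Menn
open scoped MatrixGroups

/-- entries of the powers of a unipotent element. -/
theorem unip_pow (u : SLQ) (hu : IsUnip u) (n : ℕ) :
    (u ^ n).1 0 0 = 1 + n * (u.1 0 0 - 1) ∧ (u ^ n).1 0 1 = n * u.1 0 1 ∧
      (u ^ n).1 1 0 = n * u.1 1 0 ∧ (u ^ n).1 1 1 = 1 + n * (u.1 1 1 - 1) := by
  have hdet := det_eq u
  unfold IsUnip at hu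
  have hd : u.1 1 1 = 2 - u.1 0 0 := by linarith
  have hbc : u.1 0 1 * u.1 1 0 = -(u.1 0 0 - 1) ^ 2 := by
    rw [hd] at hdet
    linear_combination (-1 : ℚ) * hdet
  induction n with
  | zero => simp
  | succ n ih =>
    obtain ⟨h0, h1, h2, h3⟩ := ih
    rw [pow_succ]
    refine ⟨?_, ?_, ?_, ?_⟩
    · rw [mul_00, h0, h1]
      push_cast
      linear_combination (n : ℚ) * hbc
    · rw [mul_01, h0, h1, hd]
      push_cast
      ring
    · rw [mul_10, h2, h3, hd]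
      push_cast
      ring
    · rw [mul_11, h2, h3]
      push_cast
      rw [hd]
      linear_combination (n : ℚ) * hbc

theorem isUnip_pow (u : SLQ) (hu : IsUnip u) (n : ℕ) : IsUnip (u ^ n) := by
  obtain ⟨h0, -, -, h3⟩ := unip_pow u hu n
  unfold IsUnip at hu ⊢
  rw [h0, h3]
  have hd : u.1 1 1 = 2 - u.1 0 0 := by linarith
  rw [hd]
  ring

/-- clearing denominators: `x ∈ M ℤ[1/q]` and `k` large give `q ^ k * x ∈ M ℤ`. -/
theorem AQm.exists_clear {q : ℕ} (hq : 0 < q) {M : ℤ} {x : ℚ} (hx : AQm q M x) :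
    ∃ k0 : ℕ, ∀ k : ℕ, k0 ≤ k → ∃ m : ℤ, (q : ℚ) ^ k * x = ((M * m : ℤ) : ℚ) := by
  obtain ⟨n, j, rfl⟩ := hx
  refine ⟨j, fun k hk => ⟨n * (q : ℤ) ^ (k - j), ?_⟩⟩
  have hq0 : (q : ℚ) ≠ 0 := by exact_mod_cast hq.ne'
  obtain ⟨i, rfl⟩ := Nat.exists_eq_add_of_le hk
  rw [Nat.add_sub_cancel_left, pow_add]
  push_cast
  field_simp

/-- **a `q`-power of a unipotent element of `Γ₀(N)(ℤ[1/q])` lies in `Γ₀(N)`.** -/
theorem exists_pow_int (q : ℕ) (hq : 0 < q) (N : ℕ) (u : SLQ) (hu : u ∈ GG q hq (N : ℤ))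
    (hun : IsUnip u) :
    ∃ (k : ℕ) (γ : SL(2, ℤ)), γ ∈ CongruenceSubgroup.Gamma0 N ∧ γ.1 0 0 + γ.1 1 1 = 2 ∧
      Matrix.SpecialLinearGroup.map (Int.castRingHom ℚ) γ = u ^ (q ^ k) := by
  obtain ⟨ha, hb, hc, hd⟩ := hu
  have ha' : AQ q (u.1 0 0 - 1) := AQm.sub hq ha (AQ.one q)
  have hd' : AQ q (u.1 1 1 - 1) := AQm.sub hq hd (AQ.one q)
  obtain ⟨ka, hka⟩ := AQm.exists_clear hq ha'
  obtain ⟨kb, hkb⟩ := AQm.exists_clear hq hb
  obtain ⟨kc, hkc⟩ := AQm.exists_clear hq hc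
  obtain ⟨kd, hkd⟩ := AQm.exists_clear hq hd'
  set k := ka + kb + kc + kd with hk
  obtain ⟨ma, hma⟩ := hka k (by omega)
  obtain ⟨mb, hmb⟩ := hkb k (by omega)
  obtain ⟨mc, hmc⟩ := hkc k (by omega)
  obtain ⟨md, hmd⟩ := hkd k (by omega)
  obtain ⟨h0, h1, h2, h3⟩ := unip_pow u hun (q ^ k)
  push_cast at h0 h1 h2 h3
  rw [hma] at h0
  rw [hmb] at h1
  rw [hmc] at h2
  rw [hmd] at h3
  have hdetq := det_eq (u ^ (q ^ k))
  rw [h0, h1, h2, h3] at hdetq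
  have hdetz : (1 + 1 * ma) * (1 + 1 * md) - (1 * mb) * ((N : ℤ) * mc) = 1 := by
    exact_mod_cast hdetq
  have htr := isUnip_pow u hun (q ^ k)
  unfold IsUnip at htr
  rw [h0, h3] at htr
  have htrz : (1 + 1 * ma) + (1 + 1 * md) = 2 := by exact_mod_cast htr
  refine ⟨k, ⟨!![1 + 1 * ma, 1 * mb; (N : ℤ) * mc, 1 + 1 * md], ?_⟩, ?_, ?_, ?_⟩
  · rw [Matrix.det_fin_two_of]
    exact hdetz
  · rw [CongruenceSubgroup.Gamma0_mem]
    simp
  · simpa using htrz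
  · apply SLQ.ext'
    · rw [h0]; simp
    · rw [h1]; simp
    · rw [h2]; simp
    · rw [h3]; simp

/-- the image of `Γ₀(N)` lies in `Γ₀(N)(ℤ[1/q])`. -/
theorem map_mem_GG (q : ℕ) (hq : 0 < q) (N : ℕ) (γ : SL(2, ℤ))
    (hγ : γ ∈ CongruenceSubgroup.Gamma0 N) :
    Matrix.SpecialLinearGroup.map (Int.castRingHom ℚ) γ ∈ GG q hq (N : ℤ) := by
  rw [CongruenceSubgroup.Gamma0_mem, ZMod.intCast_zmod_eq_zero_iff_dvd] at hγ
  obtain ⟨m, hm⟩ := hγ
  refine ⟨?_, ?_, ?_, ?_⟩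
  · simpa using AQ.int q (γ.1 0 0)
  · simpa using AQ.int q (γ.1 0 1)
  · have := AQm.int q (N : ℤ) m
    rw [← hm] at this
    simpa using this
  · simpa using AQ.int q (γ.1 1 1)

/-- **a hom on `Γ₀(N)(ℤ[1/q])` into a group on which `q` acts injectively kills every unipotent
element as soon as it kills the trace-`2` elements of `Γ₀(N)`.** -/
theorem map_unip_eq_zero (q : ℕ) (hq : 0 < q) (N : ℕ) {F : Type*} [AddCommGroup F]
    (hqF : ∀ x : F, q • x = 0 → x = 0)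
    (Φ : Additive ↥(GG q hq (N : ℤ)) →+ F)
    (hΦ : ∀ (γ : SL(2, ℤ)) (hγ : γ ∈ CongruenceSubgroup.Gamma0 N), γ.1 0 0 + γ.1 1 1 = 2 →
      Φ (Additive.ofMul ⟨Matrix.SpecialLinearGroup.map (Int.castRingHom ℚ) γ,
        map_mem_GG q hq N γ hγ⟩) = 0)
    (u : ↥(GG q hq (N : ℤ))) (hun : IsUnip u.1) : Φ (Additive.ofMul u) = 0 := by
  obtain ⟨k, γ, hγ, htr, hpow⟩ := exists_pow_int q hq N u.1 u.2 hun
  have h1 : Φ (Additive.ofMul (u ^ (q ^ k))) = 0 := by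
    have := hΦ γ hγ htr
    convert this using 3
    apply Subtype.ext
    rw [SubgroupClass.coe_pow]
    exact hpow.symm
  rw [ofMul_pow, map_nsmul] at h1
  have key : ∀ (j : ℕ) (x : F), (q ^ j) • x = 0 → x = 0 := by
    intro j
    induction j with
    | zero => intro x hx; simpa using hx
    | succ j ih =>
      intro x hx
      rw [pow_succ, mul_smul] at hx
      exact hqF x (ih _ hx)
  exact key k _ h1

end Fermat.Agent.S41.Amalg.Unip
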