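/-
S41 / Amalg (L3a): the gluing theorem for `Γ₀(N)[1/q] = Γ₀(N) *_{Γ₀(Nq)} Γ₀(N)^δ`, in the form
used by BlockIhara.

* `glue_of` : two additive characters `c1, c2` of `Γ₀(N)` with `c1 ∘ incl = c2 ∘ conjQ` on `Γ₀(Nq)`
  glue to a character `Φ` of `Γ₀(N)[1/q]` with `Φ ∘ iA = c1`, `Φ ∘ iB = c2`
  (from generation `AA ⊔ BB = ⊤` and the normal form hypothesis `NFHyp AA BB`);
* `GG_eq` : helper6's `Defs.GG N q` is helper10's `Menn.GG q hq N`;
* `exists_isParHom` : the glued character as a "parabolic hom" `Φ : SL(2,ℚ) → Multiplicative F`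
  in the sense of `Menn.IsParHom` (multiplicative on `GG`, kills the unipotents of `GG`), when
  `c1, c2` kill the trace-`2` elements of `Γ₀(N)` and `q` acts injectively on `F`.
-/
import Fermat.Agent.S41.Amalg.Defs
import Fermat.Agent.S41.Amalg.GluePush
import Fermat.Agent.S41.Amalg.Unip
import Fermat.Agent.S41.Menn.ParHom

set_option autoImplicit false

namespace Fermat.Agent.S41.Amalg.Main

open Matrix MatrixGroups CongruenceSubgroup
open Fermat.Agent.S41.Amalg.Defs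

/-! ### the intersection `AA ∩ BB` is `Γ₀(Nq)` -/

/-- if `iA a = iB b` then `a ∈ Γ₀(Nq)` and `b = conjQ a`. -/
theorem exists_of_iA_eq_iB (N q : ℕ) [NeZero q] (a b : Gamma0 N) (h : iA N q a = iB N q b) :
    ∃ γ : Gamma0 (N * q), inclQ N q γ = a ∧ conjQ N q γ = b := by
  have h10 : (((a : SL(2, ℤ)) 1 0 : ℤ) : ℚ) = (q : ℚ) * (((b : SL(2, ℤ)) 1 0 : ℤ) : ℚ) := by
    have h1 := congrArg (fun x : GG N q => ((x : SL(2, ℚ)) : Matrix (Fin 2) (Fin 2) ℚ) 1 0) h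
    simp only [iB_matrix] at h1
    rw [show (((iA N q a : GG N q) : SL(2, ℚ)) : Matrix (Fin 2) (Fin 2) ℚ) 1 0 =
      (((a : SL(2, ℤ)) 1 0 : ℤ) : ℚ) from rfl] at h1
    simpa using h1
  have h10z : (a : SL(2, ℤ)) 1 0 = (q : ℤ) * (b : SL(2, ℤ)) 1 0 := by exact_mod_cast h10
  have hmem : (a : SL(2, ℤ)) ∈ Gamma0 (N * q) := by
    apply mem_Gamma0_of_dvd
    obtain ⟨t, ht⟩ := dvd_of_mem_Gamma0 b.2
    refine ⟨t, ?_⟩
    rw [h10z, ht]
    push_cast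
    ring
  refine ⟨⟨(a : SL(2, ℤ)), hmem⟩, Subtype.ext rfl, ?_⟩
  apply iB_injective N q
  rw [iB_conjQ, ← h]
  rfl

/-! ### gluing -/

/-- **the amalgam gluing theorem**, from generation and the normal form hypothesis. -/
theorem glue_of (N q : ℕ) [NeZero q] (hgen : AA N q ⊔ BB N q = ⊤)
    (hNF : GluePush.NFHyp (AA N q) (BB N q)) {F : Type*} [AddCommGroup F]
    (c1 c2 : Additive (Gamma0 N) →+ F)
    (h : ∀ γ : Gamma0 (N * q),
      c1 (Additive.ofMul (inclQ N q γ)) = c2 (Additive.ofMul (conjQ N q γ))) :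
    ∃ Φ : Additive (GG N q) →+ F,
      (∀ γ : Gamma0 N, Φ (Additive.ofMul (iA N q γ)) = c1 (Additive.ofMul γ)) ∧
      (∀ γ : Gamma0 N, Φ (Additive.ofMul (iB N q γ)) = c2 (Additive.ofMul γ)) := by
  classical
  let eA : Gamma0 N ≃* ↥(AA N q) := MonoidHom.ofInjective (iA_injective N q)
  let eB : Gamma0 N ≃* ↥(BB N q) := MonoidHom.ofInjective (iB_injective N q)
  let f1 : ↥(AA N q) →* Multiplicative F :=
    (AddMonoidHom.toMultiplicativeRight c1).comp eA.symm.toMonoidHom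
  let f2 : ↥(BB N q) →* Multiplicative F :=
    (AddMonoidHom.toMultiplicativeRight c2).comp eB.symm.toMonoidHom
  have hA : ∀ γ : Gamma0 N, eA.symm ⟨iA N q γ, iA_mem_AA N q γ⟩ = γ := by
    intro γ
    apply eA.injective
    rw [MulEquiv.apply_symm_apply]
    rfl
  have hB : ∀ γ : Gamma0 N, eB.symm ⟨iB N q γ, iB_mem_BB N q γ⟩ = γ := by
    intro γ
    apply eB.injective
    rw [MulEquiv.apply_symm_apply]
    rfl
  have hc : ∀ g (h1 : g ∈ AA N q) (h2 : g ∈ BB N q), f1 ⟨g, h1⟩ = f2 ⟨g, h2⟩ := by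
    rintro g ⟨a, rfl⟩ ⟨b, hb⟩
    obtain ⟨γ, rfl, rfl⟩ := exists_of_iA_eq_iB N q a b hb.symm
    change Multiplicative.ofAdd (c1 (Additive.ofMul (eA.symm ⟨_, _⟩))) =
      Multiplicative.ofAdd (c2 (Additive.ofMul (eB.symm ⟨_, _⟩)))
    have e2 : (⟨iA N q (inclQ N q γ), ⟨conjQ N q γ, hb⟩⟩ : ↥(BB N q)) =
        ⟨iB N q (conjQ N q γ), iB_mem_BB N q _⟩ := Subtype.ext hb.symm
    rw [hA, e2, hB, h]
  obtain ⟨Φ, h1, h2⟩ := GluePush.exists_glue_of_nf hgen hNF f1 f2 hc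
  refine ⟨MonoidHom.toAdditiveLeft Φ, ?_, ?_⟩
  · intro γ
    have := h1 ⟨iA N q γ, iA_mem_AA N q γ⟩
    change Multiplicative.toAdd (Φ (iA N q γ)) = _
    rw [this]
    change c1 (Additive.ofMul (eA.symm ⟨_, _⟩)) = _
    rw [hA]
  · intro γ
    have := h2 ⟨iB N q γ, iB_mem_BB N q γ⟩
    change Multiplicative.toAdd (Φ (iB N q γ)) = _
    rw [this]
    change c2 (Additive.ofMul (eB.symm ⟨_, _⟩)) = _
    rw [hB]

/-! ### bridge to helper10's `Menn.GG` -/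

theorem mem_Zq_iff_AQ {q : ℕ} (hq : 0 < q) {x : ℚ} : x ∈ Zq q ↔ Menn.AQ q x := by
  have hq0 : (q : ℚ) ≠ 0 := by exact_mod_cast hq.ne'
  constructor
  · rintro ⟨k, z, hz⟩
    refine ⟨z, k, ?_⟩
    rw [← one_mul z] at hz
    rw [eq_div_iff (pow_ne_zero k hq0)]
    exact_mod_cast hz
  · rintro ⟨n, k, rfl⟩
    refine ⟨k, n, ?_⟩
    rw [div_mul_cancel₀ _ (pow_ne_zero k hq0)]
    push_cast
    ring

theorem exists_Zq_iff_AQm {q : ℕ} (hq : 0 < q) {N : ℕ} {x : ℚ} :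
    (∃ t ∈ Zq q, x = N * t) ↔ Menn.AQm q (N : ℤ) x := by
  have hq0 : (q : ℚ) ≠ 0 := by exact_mod_cast hq.ne'
  constructor
  · rintro ⟨t, ⟨k, z, hz⟩, rfl⟩
    refine ⟨z, k, ?_⟩
    rw [eq_div_iff (pow_ne_zero k hq0), mul_assoc, hz]
    push_cast
    ring
  · rintro ⟨n, k, rfl⟩
    refine ⟨(n : ℚ) / (q : ℚ) ^ k, ⟨k, n, ?_⟩, ?_⟩
    · rw [div_mul_cancel₀ _ (pow_ne_zero k hq0)]
    · push_cast
      ring

/-- **helper6's `GG N q` is helper10's `GG q hq N`.** -/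
theorem GG_eq (N q : ℕ) (hq : 0 < q) : GG N q = Menn.GG q hq (N : ℤ) := by
  ext g
  constructor
  · rintro ⟨hg, ht⟩
    exact ⟨(mem_Zq_iff_AQ hq).mp (hg 0 0), (mem_Zq_iff_AQ hq).mp (hg 0 1),
      (exists_Zq_iff_AQm hq).mp ht, (mem_Zq_iff_AQ hq).mp (hg 1 1)⟩
  · rintro ⟨h0, h1, h2, h3⟩
    refine ⟨fun i j => ?_, (exists_Zq_iff_AQm hq).mpr h2⟩
    fin_cases i <;> fin_cases j
    · exact (mem_Zq_iff_AQ hq).mpr h0
    · exact (mem_Zq_iff_AQ hq).mpr h1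
    · exact (mem_Zq_iff_AQ hq).mpr (Menn.AQm.toAQ hq h2)
    · exact (mem_Zq_iff_AQ hq).mpr h3

/-! ### the glued character as a parabolic hom -/

/-- **BlockIhara input**: the glued character as a `Menn.IsParHom`. -/
theorem exists_isParHom (N q : ℕ) (hq : 0 < q) [NeZero q] (hgen : AA N q ⊔ BB N q = ⊤)
    (hNF : GluePush.NFHyp (AA N q) (BB N q)) {F : Type*} [AddCommGroup F]
    (hqF : ∀ x : F, q • x = 0 → x = 0)
    (c1 c2 : Additive (Gamma0 N) →+ F)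
    (hc1 : ∀ γ : Gamma0 N, (γ : SL(2, ℤ)) 0 0 + (γ : SL(2, ℤ)) 1 1 = 2 →
      c1 (Additive.ofMul γ) = 0)
    (h : ∀ γ : Gamma0 (N * q),
      c1 (Additive.ofMul (inclQ N q γ)) = c2 (Additive.ofMul (conjQ N q γ))) :
    ∃ Φ : Menn.SLQ → Multiplicative F, Menn.IsParHom q hq (N : ℤ) Φ ∧
      (∀ γ : Gamma0 N, Φ (castSL (γ : SL(2, ℤ))) = Multiplicative.ofAdd (c1 (Additive.ofMul γ))) ∧
      (∀ γ : Gamma0 N, Φ (conjD q (castSL (γ : SL(2, ℤ)))) =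
        Multiplicative.ofAdd (c2 (Additive.ofMul γ))) := by
  classical
  obtain ⟨Φ, hΦ1, hΦ2⟩ := glue_of N q hgen hNF c1 c2 h
  have hGG := GG_eq N q hq
  refine ⟨fun g => if hg : g ∈ GG N q then Multiplicative.ofAdd (Φ (Additive.ofMul ⟨g, hg⟩))
    else 1, ⟨?_, ?_⟩, ?_, ?_⟩
  · intro g g' hg hg'
    rw [← hGG] at hg hg'
    have hgg' : g * g' ∈ GG N q := (GG N q).mul_mem hg hg'
    simp only [dif_pos hg, dif_pos hg', dif_pos hgg']
    rw [← ofAdd_add, ← map_add]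
    rfl
  · intro g hg hun
    have hg' : g ∈ GG N q := by rw [hGG]; exact hg
    simp only [dif_pos hg']
    let e : ↥(GG N q) ≃* ↥(Menn.GG q hq (N : ℤ)) := MulEquiv.subgroupCongr hGG
    let Ψ : Additive ↥(Menn.GG q hq (N : ℤ)) →+ F :=
      Φ.comp (MonoidHom.toAdditive e.symm.toMonoidHom)
    have hΨ := Unip.map_unip_eq_zero q hq N hqF Ψ (fun γ hγ htr => by
      have := hΦ1 ⟨γ, hγ⟩
      rw [hc1 ⟨γ, hγ⟩ htr] at this
      exact this) ⟨g, hg⟩ hun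
    change Multiplicative.ofAdd (Φ (Additive.ofMul ⟨g, hg'⟩)) = Multiplicative.ofAdd 0
    exact congrArg _ hΨ
  · intro γ
    have hmem : castSL (γ : SL(2, ℤ)) ∈ GG N q := castSL_mem_GG q γ.2
    simp only [dif_pos hmem]
    exact congrArg _ (hΦ1 γ)
  · intro γ
    have hmem : conjD q (castSL (γ : SL(2, ℤ))) ∈ GG N q := conjD_castSL_mem_GG q γ.2
    simp only [dif_pos hmem]
    exact congrArg _ (hΦ2 γ)

end Fermat.Agent.S41.Amalg.Main
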