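/-
S41 / Amalg (L3a): the UNCONDITIONAL amalgam gluing theorems for
`Γ₀(N)[1/q] = Γ₀(N) *_{Γ₀(Nq)} Γ₀(N)^δ` (`q` prime, `q ∤ N`): `Main.glue_of` and
`Main.exists_isParHom` with generation (`GenerateD.AA_sup_BB_eq_top`, helper14) and the normal form
hypothesis (`Concrete.nfHyp`, helper6) discharged.
-/
import Fermat.Agent.S41.Amalg.Main
import Fermat.Agent.S41.Amalg.Concrete
import Fermat.Agent.S41.Amalg.GenerateD

set_option autoImplicit false

namespace Fermat.Agent.S41.Amalg.Final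

open Matrix MatrixGroups CongruenceSubgroup
open Fermat.Agent.S41.Amalg.Defs

/-- **amalgam gluing** (additive form): two characters of `Γ₀(N)` whose restrictions to `Γ₀(Nq)`
along `incl` and `conjQ` agree glue to a character of `Γ₀(N)[1/q]`. -/
theorem glue_gamma0 {N q : ℕ} [NeZero q] (hq : q.Prime) (hqN : ¬ q ∣ N)
    {F : Type*} [AddCommGroup F] (c1 c2 : Additive (Gamma0 N) →+ F)
    (h : ∀ γ : Gamma0 (N * q),
      c1 (Additive.ofMul (inclQ N q γ)) = c2 (Additive.ofMul (conjQ N q γ))) :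
    ∃ Φ : Additive (GG N q) →+ F,
      (∀ γ : Gamma0 N, Φ (Additive.ofMul (iA N q γ)) = c1 (Additive.ofMul γ)) ∧
      (∀ γ : Gamma0 N, Φ (Additive.ofMul (iB N q γ)) = c2 (Additive.ofMul γ)) :=
  Main.glue_of N q (GenerateD.AA_sup_BB_eq_top hq hqN) (Concrete.nfHyp hq hqN) c1 c2 h

/-- **BlockIhara input**: the glued character as a parabolic hom on `SL(2,ℚ)` in the sense of
`Menn.IsParHom` (multiplicative on `Menn.GG q _ N`, kills its unipotent elements). -/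
theorem exists_isParHom {N q : ℕ} [NeZero q] (hq : q.Prime) (hqN : ¬ q ∣ N)
    {F : Type*} [AddCommGroup F] (hqF : ∀ x : F, q • x = 0 → x = 0)
    (c1 c2 : Additive (Gamma0 N) →+ F)
    (hc1 : ∀ γ : Gamma0 N, (γ : SL(2, ℤ)) 0 0 + (γ : SL(2, ℤ)) 1 1 = 2 →
      c1 (Additive.ofMul γ) = 0)
    (h : ∀ γ : Gamma0 (N * q),
      c1 (Additive.ofMul (inclQ N q γ)) = c2 (Additive.ofMul (conjQ N q γ))) :
    ∃ Φ : Menn.SLQ → Multiplicative F, Menn.IsParHom q hq.pos (N : ℤ) Φ ∧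
      (∀ γ : Gamma0 N, Φ (castSL (γ : SL(2, ℤ))) = Multiplicative.ofAdd (c1 (Additive.ofMul γ))) ∧
      (∀ γ : Gamma0 N, Φ (conjD q (castSL (γ : SL(2, ℤ)))) =
        Multiplicative.ofAdd (c2 (Additive.ofMul γ))) :=
  Main.exists_isParHom N q hq.pos (GenerateD.AA_sup_BB_eq_top hq hqN) (Concrete.nfHyp hq hqN)
    hqF c1 c2 hc1 h

/-- the case `F = ZMod p`, `p ≠ q` prime. -/
theorem exists_isParHom_zmod {N q p : ℕ} [NeZero q] (hq : q.Prime) (hqN : ¬ q ∣ N)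
    [Fact p.Prime] (hqp : q ≠ p)
    (c1 c2 : Additive (Gamma0 N) →+ ZMod p)
    (hc1 : ∀ γ : Gamma0 N, (γ : SL(2, ℤ)) 0 0 + (γ : SL(2, ℤ)) 1 1 = 2 →
      c1 (Additive.ofMul γ) = 0)
    (h : ∀ γ : Gamma0 (N * q),
      c1 (Additive.ofMul (inclQ N q γ)) = c2 (Additive.ofMul (conjQ N q γ))) :
    ∃ Φ : Menn.SLQ → Multiplicative (ZMod p), Menn.IsParHom q hq.pos (N : ℤ) Φ ∧
      (∀ γ : Gamma0 N, Φ (castSL (γ : SL(2, ℤ))) = Multiplicative.ofAdd (c1 (Additive.ofMul γ))) ∧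
      (∀ γ : Gamma0 N, Φ (conjD q (castSL (γ : SL(2, ℤ)))) =
        Multiplicative.ofAdd (c2 (Additive.ofMul γ))) := by
  refine exists_isParHom hq hqN ?_ c1 c2 hc1 h
  intro x hx
  rw [nsmul_eq_mul] at hx
  rcases mul_eq_zero.mp hx with h0 | h0
  · exfalso
    rw [ZMod.natCast_eq_zero_iff] at h0
    exact hqp ((Nat.prime_dvd_prime_iff_eq (Fact.out : p.Prime) hq).mp h0).symm
  · exact h0

end Fermat.Agent.S41.Amalg.Final
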