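/-
S41 / junction Amalg → Menn: the statement (A_Z) for BOTH components of a pair `(c1, c2)` of
characters of `Γ₀(N)` with `c1 ∘ incl = c2 ∘ conjQ` on `Γ₀(Nq)`:

  `c_i (x κ x⁻¹) = c_i κ`   for all `x ∈ SL(2,ℤ)`, `κ ∈ Γ(N)`, `i = 1, 2`.

Inputs: the amalgam gluing `Final.exists_isParHom` (L3a) and helper10's centrality
`Menn.central_SLZ` / `Menn.invSub` (Central4), whose arithmetic hypotheses `GoodRepA`, `IntRep`
are kept as hypotheses here.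
-/
import Fermat.Agent.S41.Amalg.Final
import Fermat.Agent.S41.Menn.Central4

set_option autoImplicit false

namespace Fermat.Agent.S41.Amalg.CentralZ

open Matrix MatrixGroups CongruenceSubgroup
open Fermat.Agent.S41.Amalg.Defs Fermat.Agent.S41.Menn

/-! ### principal congruence elements in `K(N)` -/

theorem dvd_of_mem_Gamma {N : ℕ} {κ : SL(2, ℤ)} (h : κ ∈ Gamma N) :
    (N : ℤ) ∣ κ 0 0 - 1 ∧ (N : ℤ) ∣ κ 0 1 ∧ (N : ℤ) ∣ κ 1 0 ∧ (N : ℤ) ∣ κ 1 1 - 1 := by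
  rw [Gamma_mem] at h
  obtain ⟨h0, h1, h2, h3⟩ := h
  refine ⟨?_, ?_, ?_, ?_⟩
  · rw [← ZMod.intCast_zmod_eq_zero_iff_dvd]; push_cast; rw [h0]; ring
  · rw [← ZMod.intCast_zmod_eq_zero_iff_dvd]; exact h1
  · rw [← ZMod.intCast_zmod_eq_zero_iff_dvd]; exact h2
  · rw [← ZMod.intCast_zmod_eq_zero_iff_dvd]; push_cast; rw [h3]; ring

theorem Gamma_le_Gamma0' (N : ℕ) : Gamma N ≤ Gamma0 N := fun _ h =>
  mem_Gamma0_of_dvd (dvd_of_mem_Gamma h).2.2.1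

theorem castSL_mem_KK {q : ℕ} (hq : 0 < q) {N : ℕ} {κ : SL(2, ℤ)} (h : κ ∈ Gamma N) :
    castSL κ ∈ KK q hq (N : ℤ) := by
  obtain ⟨⟨m0, h0⟩, ⟨m1, h1⟩, ⟨m2, h2⟩, ⟨m3, h3⟩⟩ := dvd_of_mem_Gamma h
  refine ⟨⟨m0, 0, ?_⟩, ⟨m1, 0, ?_⟩, ⟨m2, 0, ?_⟩, ⟨m3, 0, ?_⟩⟩
  · change ((κ 0 0 : ℤ) : ℚ) - 1 = _
    rw [← h0]; push_cast; ring
  · change ((κ 0 1 : ℤ) : ℚ) = _
    rw [← h1]; ring
  · change ((κ 1 0 : ℤ) : ℚ) = _
    rw [← h2]; ring
  · change ((κ 1 1 : ℤ) : ℚ) - 1 = _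
    rw [← h3]; push_cast; ring

theorem conjD_castSL_mem_KK {q : ℕ} (hq : 0 < q) [NeZero q] {N : ℕ} {κ : SL(2, ℤ)}
    (h : κ ∈ Gamma N) : conjD q (castSL κ) ∈ KK q hq (N : ℤ) := by
  have hq0 : (q : ℚ) ≠ 0 := by exact_mod_cast hq.ne'
  obtain ⟨⟨m0, h0⟩, ⟨m1, h1⟩, ⟨m2, h2⟩, ⟨m3, h3⟩⟩ := dvd_of_mem_Gamma h
  refine ⟨⟨m0, 0, ?_⟩, ⟨m1, 1, ?_⟩, ⟨q * m2, 0, ?_⟩, ⟨m3, 0, ?_⟩⟩
  · change ((κ 0 0 : ℤ) : ℚ) - 1 = _
    rw [← h0]; push_cast; ring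
  · change ((κ 0 1 : ℤ) : ℚ) / q = _
    rw [h1]; push_cast; ring
  · change (q : ℚ) * ((κ 1 0 : ℤ) : ℚ) = _
    rw [h2]; push_cast; ring
  · change ((κ 1 1 : ℤ) : ℚ) - 1 = _
    rw [← h3]; push_cast; ring

/-! ### `conjD (SL(2,ℤ))` acts trivially too -/

section inv
variable {B : Type*} [CommGroup B] {q : ℕ} {hq : 0 < q} [NeZero q] {N : ℕ} {Φ : SLQ → B}
  (hN : 0 < N) (hA : GoodRepA q (N : ℤ)) (hI : 1 < N → IntRep q hq (N : ℤ))
  (hΦ : IsParHom q hq (N : ℤ) Φ)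
include hN hA hI hΦ

theorem conjD_castSL_mem_invSub (x : SL(2, ℤ)) : conjD q (castSL x) ∈ invSub q hq N Φ := by
  have hq0 : (q : ℚ) ≠ 0 := by exact_mod_cast hq.ne'
  have hqi : ((q : ℚ))⁻¹ ≠ 0 := inv_ne_zero hq0
  have hx : x ∈ Subgroup.closure {ModularGroup.S, ModularGroup.T} := by
    rw [SpecialLinearGroup.SL2Z_generators]; trivial
  have hqinv : AQ q ((q : ℚ))⁻¹ := by simpa using AQ.qinv_pow q 1
  have hqq : AQ q (q : ℚ) := by simpa using AQ.qpow hq 1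
  have hS : conjD q (castSL ModularGroup.S) = tor ((q : ℚ))⁻¹ hqi * wey := by
    apply SLQ.ext'
    · simp [conjD_apply, ModularGroup.S]
    · simp [conjD_apply, ModularGroup.S]; field_simp
    · simp [conjD_apply, ModularGroup.S]
    · simp [conjD_apply, ModularGroup.S]
  have hT : conjD q (castSL ModularGroup.T) = e12 ((q : ℚ))⁻¹ := by
    apply SLQ.ext'
    · simp [conjD_apply, ModularGroup.T]
    · simp [conjD_apply, ModularGroup.T]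
    · simp [conjD_apply, ModularGroup.T]
    · simp [conjD_apply, ModularGroup.T]
  have hle : Subgroup.closure {ModularGroup.S, ModularGroup.T} ≤
      (invSub q hq N Φ).comap ((conjD q).comp castSL) := by
    rw [Subgroup.closure_le]
    rintro y (rfl | rfl)
    · show conjD q (castSL ModularGroup.S) ∈ invSub q hq N Φ
      rw [hS]
      refine Subgroup.mul_mem _ (GG_le_invSub hΦ (tor_mem_GG hqi hqinv ?_))
        (wey_mem_invSub hN hA hI hΦ)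
      simpa using hqq
    · show conjD q (castSL ModularGroup.T) ∈ invSub q hq N Φ
      rw [hT]
      exact e12_mem_invSub hN hA hI hΦ hqinv
  exact hle hx

end inv

/-! ### (A_Z) for the pair `(c1, c2)` -/

/-- **(A_Z) for both components.**  `c1, c2` characters of `Γ₀(N)` with values in a group on which
`q` acts injectively, `c1` killing the trace-`2` elements, `c1 ∘ incl = c2 ∘ conjQ` on `Γ₀(Nq)`.
Then `c1` and `c2` are invariant under `SL(2,ℤ)`-conjugation on `Γ(N)`. -/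
theorem aZ {N q : ℕ} [NeZero q] (hq : q.Prime) (hqN : ¬ q ∣ N) (hN : 0 < N)
    (hA : GoodRepA q (N : ℤ)) (hI : 1 < N → IntRep q hq.pos (N : ℤ))
    {F : Type*} [AddCommGroup F] (hqF : ∀ x : F, q • x = 0 → x = 0)
    (c1 c2 : Additive (Gamma0 N) →+ F)
    (hc1 : ∀ γ : Gamma0 N, (γ : SL(2, ℤ)) 0 0 + (γ : SL(2, ℤ)) 1 1 = 2 →
      c1 (Additive.ofMul γ) = 0)
    (h : ∀ γ : Gamma0 (N * q),
      c1 (Additive.ofMul (inclQ N q γ)) = c2 (Additive.ofMul (conjQ N q γ)))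
    (x κ : SL(2, ℤ)) (hκ : κ ∈ Gamma N) :
    c1 (Additive.ofMul ⟨x * κ * x⁻¹, Gamma_le_Gamma0' N ((Gamma_normal N).conj_mem κ hκ x)⟩) =
        c1 (Additive.ofMul ⟨κ, Gamma_le_Gamma0' N hκ⟩) ∧
      c2 (Additive.ofMul ⟨x * κ * x⁻¹, Gamma_le_Gamma0' N ((Gamma_normal N).conj_mem κ hκ x)⟩) =
        c2 (Additive.ofMul ⟨κ, Gamma_le_Gamma0' N hκ⟩) := by
  obtain ⟨Φ, hΦ, hΦ1, hΦ2⟩ := Final.exists_isParHom hq hqN hqF c1 c2 hc1 h
  constructor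
  · have h1 := hΦ1 ⟨x * κ * x⁻¹, Gamma_le_Gamma0' N ((Gamma_normal N).conj_mem κ hκ x)⟩
    have h2 := hΦ1 ⟨κ, Gamma_le_Gamma0' N hκ⟩
    have h3 := (iZ_mem_invSub hN hA hI hΦ x).2 _ (castSL_mem_KK hq.pos hκ)
    have e : castSL (x * κ * x⁻¹) = iZ x * castSL κ * (iZ x)⁻¹ := by
      rw [map_mul, map_mul, map_inv]; rfl
    simp only at h1 h2
    rw [e, h3, h2] at h1
    exact (Multiplicative.ofAdd.injective h1).symm
  · have h1 := hΦ2 ⟨x * κ * x⁻¹, Gamma_le_Gamma0' N ((Gamma_normal N).conj_mem κ hκ x)⟩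
    have h2 := hΦ2 ⟨κ, Gamma_le_Gamma0' N hκ⟩
    have h3 := (conjD_castSL_mem_invSub hN hA hI hΦ x).2 _ (conjD_castSL_mem_KK hq.pos hκ)
    have e : conjD q (castSL (x * κ * x⁻¹)) =
        conjD q (castSL x) * conjD q (castSL κ) * (conjD q (castSL x))⁻¹ := by
      rw [map_mul, map_mul, map_inv, map_mul, map_mul, map_inv]
    simp only at h1 h2
    rw [e, h3, h2] at h1
    exact (Multiplicative.ofAdd.injective h1).symm

end Fermat.Agent.S41.Amalg.CentralZ
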