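/-
S41 / junction Amalg → Menn → BlockIhara, in the language of `Degen/Defs.lean` (helper27):
for `c1 c2 : Hom(Γ₀(N), ZMod p)` with `resA c1 + resB c2 = 0` and `c1` admissible, both `c1` and `c2`
are invariant under `SL(2,ℤ)`-conjugation on `Γ(N)` (statement (A_Z)).
-/
import Fermat.Agent.S41.Amalg.CentralZ
import Fermat.Agent.S41.Menn.NT_A1_IntRep
import Fermat.Agent.S41.Degen.Defs
import Fermat.Agent.S41.Menn.NT_A2
import Fermat.Agent.S41.Menn.TransferEis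

set_option autoImplicit false

namespace Fermat.Agent.S41.Amalg.CentralDegen

open Matrix MatrixGroups CongruenceSubgroup
open Fermat.Agent.S41.Amalg.Defs Fermat.Agent.S41.Menn
open Fermat.Agent.S29.Betti

theorem incl_eq (N q : ℕ) (γ : Gamma0 (N * q)) : Degen.incl N q γ = inclQ N q γ := rfl

theorem dConj_eq_conjQ (N q : ℕ) [NeZero q] (γ : Gamma0 (N * q)) :
    Degen.dConj N q γ = conjQ N q γ := by
  apply Degen.dConj_eq
  have hq : (q : ℤ) ≠ 0 := Nat.cast_ne_zero.mpr (NeZero.ne q)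
  have hdvd : (q : ℤ) ∣ (γ : SL(2, ℤ)) 1 0 := by
    refine dvd_trans ?_ (dvd_of_mem_Gamma0 γ.2)
    push_cast
    exact dvd_mul_left _ _
  obtain ⟨t, ht⟩ := hdvd
  rw [conjQ_coe, Degen.dMat]
  ext i j
  fin_cases i <;> fin_cases j
  · simp [Matrix.mul_apply, Fin.sum_univ_two]; ring
  · simp [Matrix.mul_apply, Fin.sum_univ_two]
  · simp [Matrix.mul_apply, Fin.sum_univ_two]
    rw [ht, Int.mul_ediv_cancel_left _ hq]; ring
  · simp [Matrix.mul_apply, Fin.sum_univ_two]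

/-- **(A_Z) from `resA c1 + resB c2 = 0`.** -/
theorem aZ_of_res {N q p : ℕ} [NeZero q] [Fact p.Prime] (hq : q.Prime) (hqN : ¬ q ∣ N)
    (hN : 0 < N) (hqp : q ≠ p) (hA : GoodRepA q (N : ℤ))
    (c1 c2 : Additive (Gamma0 N) →+ ZMod p) (hc1 : IsAdmChar c1)
    (h : Degen.resA N q (ZMod p) c1 + Degen.resB N q (ZMod p) c2 = 0)
    (x κ : SL(2, ℤ)) (hκ : κ ∈ Gamma N) :
    c1 (Additive.ofMul ⟨x * κ * x⁻¹,
        CentralZ.Gamma_le_Gamma0' N ((Gamma_normal N).conj_mem κ hκ x)⟩) =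
        c1 (Additive.ofMul ⟨κ, CentralZ.Gamma_le_Gamma0' N hκ⟩) ∧
      c2 (Additive.ofMul ⟨x * κ * x⁻¹,
        CentralZ.Gamma_le_Gamma0' N ((Gamma_normal N).conj_mem κ hκ x)⟩) =
        c2 (Additive.ofMul ⟨κ, CentralZ.Gamma_le_Gamma0' N hκ⟩) := by
  have hcop : Nat.Coprime N q := ((Nat.Prime.coprime_iff_not_dvd hq).mpr hqN).symm
  have hqF : ∀ y : ZMod p, q • y = 0 → y = 0 := by
    intro y hy
    rw [nsmul_eq_mul] at hy
    rcases mul_eq_zero.mp hy with h0 | h0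
    · exfalso
      rw [ZMod.natCast_eq_zero_iff] at h0
      exact hqp ((Nat.prime_dvd_prime_iff_eq (Fact.out : p.Prime) hq).mp h0).symm
    · exact h0
  have hc1' : ∀ γ : Gamma0 N, (γ : SL(2, ℤ)) 0 0 + (γ : SL(2, ℤ)) 1 1 = 2 →
      c1 (Additive.ofMul γ) = 0 := by
    intro γ hγ
    apply hc1 γ
    left
    rw [Matrix.trace_fin_two]
    have : ((γ : SL(2, ℤ)) : Matrix (Fin 2) (Fin 2) ℤ) 0 0 +
        ((γ : SL(2, ℤ)) : Matrix (Fin 2) (Fin 2) ℤ) 1 1 = 2 := hγ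
    rw [this]
    norm_num
  have h' : ∀ γ : Gamma0 (N * q),
      c1 (Additive.ofMul (inclQ N q γ)) = (-c2) (Additive.ofMul (conjQ N q γ)) := by
    intro γ
    have := DFunLike.congr_fun h (Additive.ofMul γ)
    rw [AddMonoidHom.add_apply, Degen.resA_apply, Degen.resB_apply, incl_eq, dConj_eq_conjQ,
      AddMonoidHom.zero_apply] at this
    rw [AddMonoidHom.neg_apply]
    exact eq_neg_of_add_eq_zero_left this
  obtain ⟨h1, h2⟩ := CentralZ.aZ hq hqN hN hA (fun hN1 => NTA1.intRep hq hN1 hcop) hqF c1 (-c2)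
    hc1' h' x κ hκ
  refine ⟨h1, ?_⟩
  rw [AddMonoidHom.neg_apply, AddMonoidHom.neg_apply] at h2
  exact neg_injective h2

/-- **(A_Z), UNCONDITIONAL**, in the `ConjInv` form consumed by `Menn/TransferEis.lean`:
for `c1 c2 : Hom(Γ₀(N), ZMod p)` with `c1` admissible and `resA c1 + resB c2 = 0`
(`q` prime, `q ∤ N`, `q ≠ p`), both `c1` and `c2` are `SL(2,ℤ)`-conjugation invariant on `Γ(N)`. -/
theorem conjInv_of_res {N q p : ℕ} [NeZero q] [Fact p.Prime] (hq : q.Prime) (hqN : ¬ q ∣ N)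
    (hN : 0 < N) (hqp : q ≠ p)
    (c1 c2 : Additive (Gamma0 N) →+ ZMod p) (hc1 : IsAdmChar c1)
    (h : Degen.resA N q (ZMod p) c1 + Degen.resB N q (ZMod p) c2 = 0) :
    TransferEis.ConjInv (Gamma0 N) (Gamma N) (AddMonoidHom.toMultiplicativeRight c1) ∧
      TransferEis.ConjInv (Gamma0 N) (Gamma N) (AddMonoidHom.toMultiplicativeRight c2) := by
  have hA : GoodRepA q (N : ℤ) :=
    NT_A2.goodRepA hq hN ((Nat.Prime.coprime_iff_not_dvd hq).mpr hqN)
  constructor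
  · intro x k hk h1 h2
    exact congrArg Multiplicative.ofAdd (aZ_of_res hq hqN hN hqp hA c1 c2 hc1 h x k hk).1
  · intro x k hk h1 h2
    exact congrArg Multiplicative.ofAdd (aZ_of_res hq hqN hN hqp hA c1 c2 hc1 h x k hk).2

end Fermat.Agent.S41.Amalg.CentralDegen
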