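/-
S41 (level raising), block L3a, abstract part (helper22).

Gluing of two homomorphisms along a "ping-pong" pair of subgroups: the universal property of the
amalgamated product `A *_{A ∩ B} B` for commutative targets, proved without Bass-Serre theory and
without normal forms.

`exists_glue`: let `G = ⟨A, B⟩` act on a set `X` with disjoint subsets `X₁`, `X₂` such that
`A \ B` maps `X₁` into `X₂`, `B \ A` maps `X₂` into `X₁`, every `a ∈ A \ B` keeps some point of
`X₂` in `X₂` and every `b ∈ B \ A` keeps some point of `X₁` in `X₁`.  Then any two homomorphisms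
`φA : A →* F`, `φB : B →* F` into a commutative group which agree on `A ∩ B` glue to a
homomorphism `G →* F`.

Proof: a word in the letters `A ⊕ B` whose value in `G` is `1` has weight `1` in `F`, by strong
induction on the length: adjacent letters of the same type or letters lying in `A ∩ B` are merged,
a word whose last and first letters can be merged is rotated (here `F` commutative is used), and
a strictly alternating word outside `A ∩ B` whose first and last letters have different types has
value `≠ 1` by ping-pong.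

Mathlib only.
-/
import Mathlib

set_option autoImplicit false

namespace Fermat.Agent.S41.Amalg.Glue

open Monoid

variable {G : Type*} [Group G] {X : Type*} [MulAction G X]
variable {A B : Subgroup G} {F : Type*} [CommGroup F]

/-- the value in `G` of a letter. -/
def val (A B : Subgroup G) : A ⊕ B → G := Sum.elim (fun a => (a : G)) (fun b => (b : G))

/-- the weight in `F` of a letter. -/
def wt (φA : A →* F) (φB : B →* F) : A ⊕ B → F := Sum.elim φA φB

/-- the letter lies in `A ∩ B`. -/
def InC (x : A ⊕ B) : Prop := val A B x ∈ A ∧ val A B x ∈ B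

/-- two consecutive letters can be merged into one. -/
def Mergeable (x y : A ⊕ B) : Prop := x.isLeft = y.isLeft ∨ InC x ∨ InC y

theorem exists_merge (φA : A →* F) (φB : B →* F)
    (hagree : ∀ (x : G) (ha : x ∈ A) (hb : x ∈ B), φA ⟨x, ha⟩ = φB ⟨x, hb⟩)
    {x y : A ⊕ B} (h : Mergeable x y) :
    ∃ z : A ⊕ B, val A B z = val A B x * val A B y ∧ wt φA φB z = wt φA φB x * wt φA φB y := by
  rcases x with a | b <;> rcases y with a' | b'
  · exact ⟨Sum.inl (a * a'), rfl, map_mul φA a a'⟩
  · rcases h with h | h | h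
    · simp at h
    · refine ⟨Sum.inr (⟨(a : G), h.2⟩ * b'), rfl, ?_⟩
      show φB (⟨(a : G), h.2⟩ * b') = φA a * φB b'
      rw [map_mul, ← hagree (a : G) a.2 h.2]
    · refine ⟨Sum.inl (a * ⟨(b' : G), h.1⟩), rfl, ?_⟩
      show φA (a * ⟨(b' : G), h.1⟩) = φA a * φB b'
      rw [map_mul, hagree (b' : G) h.1 b'.2]
  · rcases h with h | h | h
    · simp at h
    · refine ⟨Sum.inl (⟨(b : G), h.1⟩ * a'), rfl, ?_⟩
      show φA (⟨(b : G), h.1⟩ * a') = φB b * φA a'
      rw [map_mul, hagree (b : G) h.1 b.2]
    · refine ⟨Sum.inr (b * ⟨(a' : G), h.2⟩), rfl, ?_⟩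
      show φB (b * ⟨(a' : G), h.2⟩) = φB b * φA a'
      rw [map_mul, ← hagree (a' : G) a'.2 h.2]
  · exact ⟨Sum.inr (b * b'), rfl, map_mul φB b b'⟩

/-- the type (left/right) of the last letter (`true` for the empty word). -/
def lastLeft : List (A ⊕ B) → Bool
  | [] => true
  | [x] => x.isLeft
  | _ :: y :: t => lastLeft (y :: t)

theorem lastLeft_concat (M : List (A ⊕ B)) (l : A ⊕ B) : lastLeft (M ++ [l]) = l.isLeft := by
  induction M with
  | nil => rfl
  | cons m M ih =>
    cases hM : M ++ [l] with
    | nil => simp at hM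
    | cons u v =>
      have h1 : (m :: M) ++ [l] = m :: u :: v := by simp [hM]
      rw [h1]
      show lastLeft (u :: v) = _
      rw [← hM]
      exact ih

/-- strictly alternating words all of whose letters lie outside `A ∩ B`. -/
inductive Alt : List (A ⊕ B) → Prop
  | single (x : A ⊕ B) (hx : ¬ InC x) : Alt [x]
  | cons (x y : A ⊕ B) (t : List (A ⊕ B)) (hx : ¬ InC x) (hxy : x.isLeft ≠ y.isLeft)
      (h : Alt (y :: t)) : Alt (x :: y :: t)

theorem alt_of_not_mergeable : ∀ (L : List (A ⊕ B)), 2 ≤ L.length →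
    (∀ (L₁ : List (A ⊕ B)) (x y : A ⊕ B) (L₂ : List (A ⊕ B)),
      L = L₁ ++ x :: y :: L₂ → ¬ Mergeable x y) → Alt L
  | [], h, _ => by simp at h
  | [_], h, _ => by simp at h
  | x :: y :: t, _, hred => by
    have h0 : ¬ Mergeable x y := hred [] x y t rfl
    have hx : ¬ InC x := fun h => h0 (Or.inr (Or.inl h))
    have hy : ¬ InC y := fun h => h0 (Or.inr (Or.inr h))
    have hxy : x.isLeft ≠ y.isLeft := fun h => h0 (Or.inl h)
    cases t with
    | nil => exact Alt.cons x y [] hx hxy (Alt.single y hy)
    | cons z t' =>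
      refine Alt.cons x y (z :: t') hx hxy ?_
      refine alt_of_not_mergeable (y :: z :: t') (by simp) ?_
      intro L₁ u w L₂ hL
      exact hred (x :: L₁) u w L₂ (by rw [hL]; rfl)

section PingPong

variable {X₁ X₂ : Set X}

theorem Alt.smul_mem
    (hA : ∀ a ∈ A, a ∉ B → ∀ p ∈ X₁, a • p ∈ X₂) (hB : ∀ b ∈ B, b ∉ A → ∀ p ∈ X₂, b • p ∈ X₁)
    {L : List (A ⊕ B)} (h : Alt L) :
    ∀ p : X, p ∈ (if lastLeft L then X₁ else X₂) →
      (L.map (val A B)).prod • p ∈ (if (L.head?.map Sum.isLeft).getD true then X₂ else X₁) := by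
  induction h with
  | single x hx =>
    intro p hp
    rcases x with a | b
    · have ha : (a : G) ∉ B := fun hb => hx ⟨a.2, hb⟩
      simpa [val, lastLeft] using hA a a.2 ha p (by simpa [lastLeft] using hp)
    · have hb : (b : G) ∉ A := fun ha => hx ⟨ha, b.2⟩
      simpa [val, lastLeft] using hB b b.2 hb p (by simpa [lastLeft] using hp)
  | cons x y t hx hxy _ ih =>
    intro p hp
    have hp' : p ∈ (if lastLeft (y :: t) then X₁ else X₂) := hp
    have h1 := ih p hp'
    have h2 : ((x :: y :: t).map (val A B)).prod • p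
        = val A B x • (((y :: t).map (val A B)).prod • p) := by
      rw [List.map_cons, List.prod_cons, mul_smul]
    rw [h2]
    rcases x with a | b
    · have ha : (a : G) ∉ B := fun hb => hx ⟨a.2, hb⟩
      have hy : y.isLeft = false := by
        cases hyl : y.isLeft with
        | false => rfl
        | true => exact absurd (by simp [hyl]) hxy
      have h3 : ((y :: t).map (val A B)).prod • p ∈ X₁ := by simpa [hy] using h1
      simpa [val] using hA a a.2 ha _ h3
    · have hb : (b : G) ∉ A := fun ha => hx ⟨ha, b.2⟩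
      have hy : y.isLeft = true := by
        cases hyl : y.isLeft with
        | true => rfl
        | false => exact absurd (by simp [hyl]) hxy
      have h3 : ((y :: t).map (val A B)).prod • p ∈ X₂ := by simpa [hy] using h1
      simpa [val] using hB b b.2 hb _ h3

theorem Alt.prod_ne_one (hdisj : Disjoint X₁ X₂)
    (hA : ∀ a ∈ A, a ∉ B → ∀ p ∈ X₁, a • p ∈ X₂) (hB : ∀ b ∈ B, b ∉ A → ∀ p ∈ X₂, b • p ∈ X₁)
    (hA' : ∀ a ∈ A, a ∉ B → ∃ p ∈ X₂, a • p ∈ X₂) (hB' : ∀ b ∈ B, b ∉ A → ∃ p ∈ X₁, b • p ∈ X₁)
    {x y : A ⊕ B} {t : List (A ⊕ B)} (h : Alt (x :: y :: t))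
    (hxl : x.isLeft ≠ lastLeft (y :: t)) :
    ((x :: y :: t).map (val A B)).prod ≠ 1 := by
  intro h1
  rw [List.map_cons, List.prod_cons] at h1
  have hP : ((y :: t).map (val A B)).prod = (val A B x)⁻¹ := eq_inv_of_mul_eq_one_right h1
  cases h with
  | cons _ _ _ hx hxy hyt =>
    have htr := Alt.smul_mem hA hB hyt
    rcases x with a | b
    · have ha : (a : G) ∉ B := fun hb => hx ⟨a.2, hb⟩
      have ha' : (a : G)⁻¹ ∉ B := fun hb => ha (by simpa using B.inv_mem hb)
      obtain ⟨p, hp, hp2⟩ := hA' _ (A.inv_mem a.2) ha'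
      have hl : lastLeft (y :: t) = false := by
        cases hyl : lastLeft (y :: t) with
        | false => rfl
        | true => exact absurd (by simp [hyl]) hxl
      have hy : y.isLeft = false := by
        cases hyl : y.isLeft with
        | false => rfl
        | true => exact absurd (by simp [hyl]) hxy
      have h3 := htr p (by simpa [hl] using hp)
      rw [hP] at h3
      have h4 : (val A B (Sum.inl a))⁻¹ • p ∈ X₁ := by simpa [hy] using h3
      exact (Set.disjoint_left.mp hdisj h4) (by simpa [val] using hp2)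
    · have hb : (b : G) ∉ A := fun ha => hx ⟨ha, b.2⟩
      have hb' : (b : G)⁻¹ ∉ A := fun ha => hb (by simpa using A.inv_mem ha)
      obtain ⟨p, hp, hp2⟩ := hB' _ (B.inv_mem b.2) hb'
      have hl : lastLeft (y :: t) = true := by
        cases hyl : lastLeft (y :: t) with
        | true => rfl
        | false => exact absurd (by simp [hyl]) hxl
      have hy : y.isLeft = true := by
        cases hyl : y.isLeft with
        | true => rfl
        | false => exact absurd (by simp [hyl]) hxy
      have h3 := htr p (by simpa [hl] using hp)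
      rw [hP] at h3
      have h4 : (val A B (Sum.inr b))⁻¹ • p ∈ X₂ := by simpa [hy] using h3
      exact (Set.disjoint_left.mp hdisj (by simpa [val] using hp2)) h4

/-- **The relation lemma**: a word with value `1` has weight `1`. -/
theorem wt_prod_eq_one (hdisj : Disjoint X₁ X₂)
    (hA : ∀ a ∈ A, a ∉ B → ∀ p ∈ X₁, a • p ∈ X₂) (hB : ∀ b ∈ B, b ∉ A → ∀ p ∈ X₂, b • p ∈ X₁)
    (hA' : ∀ a ∈ A, a ∉ B → ∃ p ∈ X₂, a • p ∈ X₂) (hB' : ∀ b ∈ B, b ∉ A → ∃ p ∈ X₁, b • p ∈ X₁)
    (φA : A →* F) (φB : B →* F)
    (hagree : ∀ (x : G) (ha : x ∈ A) (hb : x ∈ B), φA ⟨x, ha⟩ = φB ⟨x, hb⟩) :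
    ∀ (n : ℕ) (L : List (A ⊕ B)), L.length = n → (L.map (val A B)).prod = 1 →
      (L.map (wt φA φB)).prod = 1 := by
  intro n
  induction n using Nat.strong_induction_on with
  | _ n ih =>
    intro L hn hL
    by_cases hm : ∃ (L₁ : List (A ⊕ B)) (x y : A ⊕ B) (L₂ : List (A ⊕ B)),
        L = L₁ ++ x :: y :: L₂ ∧ Mergeable x y
    · obtain ⟨L₁, x, y, L₂, rfl, hxy⟩ := hm
      obtain ⟨z, hz1, hz2⟩ := exists_merge φA φB hagree hxy
      have hlen : (L₁ ++ z :: L₂).length < n := by
        rw [← hn]; simp
      have h1 := ih _ hlen (L₁ ++ z :: L₂) rfl (by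
        rw [List.map_append, List.prod_append, List.map_cons, List.prod_cons, hz1]
        rw [List.map_append, List.prod_append, List.map_cons, List.prod_cons, List.map_cons,
          List.prod_cons] at hL
        rw [← hL]; simp only [mul_assoc])
      rw [List.map_append, List.prod_append, List.map_cons, List.prod_cons, hz2] at h1
      rw [List.map_append, List.prod_append, List.map_cons, List.prod_cons, List.map_cons,
        List.prod_cons]
      rw [← h1]; simp only [mul_assoc]
    · have hred : ∀ (L₁ : List (A ⊕ B)) (x y : A ⊕ B) (L₂ : List (A ⊕ B)),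
          L = L₁ ++ x :: y :: L₂ → ¬ Mergeable x y :=
        fun L₁ x y L₂ h1 h2 => hm ⟨L₁, x, y, L₂, h1, h2⟩
      match L, hn, hL, hred with
      | [], _, _, _ => simp
      | [x], _, hL, _ =>
        rcases x with a | b
        · have : (a : G) = 1 := by simpa [val] using hL
          have ha : a = 1 := Subtype.ext this
          simp [wt, ha]
        · have : (b : G) = 1 := by simpa [val] using hL
          have hb : b = 1 := Subtype.ext this
          simp [wt, hb]
      | x :: y :: t, hn, hL, hred =>
        obtain ⟨M, l, hMl⟩ : ∃ (M : List (A ⊕ B)) (l : A ⊕ B), y :: t = M ++ [l] :=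
          ⟨(y :: t).dropLast, (y :: t).getLast (by simp),
            (List.dropLast_append_getLast (by simp)).symm⟩
        by_cases hml : Mergeable l x
        · obtain ⟨z, hz1, hz2⟩ := exists_merge φA φB hagree hml
          have hlen : (M ++ [z]).length < n := by
            rw [← hn]
            have : (y :: t).length = (M ++ [l]).length := by rw [hMl]
            simp at this ⊢
            omega
          have hL' : val A B x * ((M.map (val A B)).prod * val A B l) = 1 := by
            rw [List.map_cons, List.prod_cons, hMl, List.map_append, List.prod_append] at hL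
            simpa using hL
          have h1 := ih _ hlen (M ++ [z]) rfl (by
            rw [List.map_append, List.prod_append]
            simp only [List.map_cons, List.map_nil, List.prod_cons, List.prod_nil, mul_one]
            rw [hz1, ← mul_assoc, eq_inv_of_mul_eq_one_right hL', inv_mul_cancel])
          rw [List.map_append, List.prod_append] at h1
          simp only [List.map_cons, List.map_nil, List.prod_cons, List.prod_nil, mul_one] at h1
          rw [List.map_cons, List.prod_cons, hMl, List.map_append, List.prod_append]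
          simp only [List.map_cons, List.map_nil, List.prod_cons, List.prod_nil, mul_one]
          rw [← h1, hz2]
          simp only [mul_comm, mul_left_comm]
        · exfalso
          have halt : Alt (x :: y :: t) := alt_of_not_mergeable _ (by simp) hred
          have hxl : x.isLeft ≠ lastLeft (y :: t) := by
            rw [hMl, lastLeft_concat]
            exact fun h => hml (Or.inl h.symm)
          exact Alt.prod_ne_one hdisj hA hB hA' hB' halt hxl hL

end PingPong

/-- **Gluing along a ping-pong pair** (universal property of `A *_{A ∩ B} B` for commutative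
targets). -/
theorem exists_glue (hgen : A ⊔ B = ⊤) (X₁ X₂ : Set X) (hdisj : Disjoint X₁ X₂)
    (hA : ∀ a ∈ A, a ∉ B → ∀ p ∈ X₁, a • p ∈ X₂) (hB : ∀ b ∈ B, b ∉ A → ∀ p ∈ X₂, b • p ∈ X₁)
    (hA' : ∀ a ∈ A, a ∉ B → ∃ p ∈ X₂, a • p ∈ X₂) (hB' : ∀ b ∈ B, b ∉ A → ∃ p ∈ X₁, b • p ∈ X₁)
    (φA : A →* F) (φB : B →* F)
    (hagree : ∀ (x : G) (ha : x ∈ A) (hb : x ∈ B), φA ⟨x, ha⟩ = φB ⟨x, hb⟩) :
    ∃ Φ : G →* F, (∀ a : A, Φ (a : G) = φA a) ∧ (∀ b : B, Φ (b : G) = φB b) := by
  set π : Monoid.Coprod A B →* G := Coprod.lift A.subtype B.subtype with hπ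
  set ψ : Monoid.Coprod A B →* F := Coprod.lift φA φB with hψ
  have hsurj : Function.Surjective π := by
    rw [← MonoidHom.range_eq_top, hπ, Coprod.range_lift, Subgroup.range_subtype,
      Subgroup.range_subtype, hgen]
  have hker : π.ker ≤ ψ.ker := by
    intro x hx
    obtain ⟨w, rfl⟩ := Coprod.mk_surjective x
    rw [MonoidHom.mem_ker] at hx ⊢
    rw [hπ, Coprod.lift_apply_mk, FreeMonoid.lift_apply] at hx
    rw [hψ, Coprod.lift_apply_mk, FreeMonoid.lift_apply]
    exact wt_prod_eq_one hdisj hA hB hA' hB' φA φB hagree _ (FreeMonoid.toList w) rfl hx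
  refine ⟨π.liftOfSurjective hsurj ⟨ψ, hker⟩, fun a => ?_, fun b => ?_⟩
  · have h1 : π (Coprod.inl a) = (a : G) := rfl
    rw [← h1]
    exact (MonoidHom.liftOfRightInverse_comp_apply _ _ _ ⟨ψ, hker⟩ (Coprod.inl a))
  · have h1 : π (Coprod.inr b) = (b : G) := rfl
    rw [← h1]
    exact (MonoidHom.liftOfRightInverse_comp_apply _ _ _ ⟨ψ, hker⟩ (Coprod.inr b))

end Fermat.Agent.S41.Amalg.Glue
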