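/-
S41 (level raising), block L3a, abstract part (helper22): gluing from a NORMAL-FORM hypothesis.

`NFHyp A B`: every nonempty alternating word with letters in `A \ B` (tag `false`) and `B \ A`
(tag `true`) has product `≠ 1` (this is what `PingPong.prod_ne_one` provides for
`Γ₀(N)`, `δ⁻¹Γ₀(N)δ`).  `exists_glue_of_nf`: if `G = ⟨A, B⟩` and `NFHyp A B`, two homomorphisms
`A →* F`, `B →* F` into a commutative group which agree on `A ∩ B` glue to `G →* F`.

Same proof as `Glue.exists_glue` (whose word machinery is reused); only the last step differs.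
-/
import Fermat.Agent.S41.Amalg.Glue

set_option autoImplicit false

namespace Fermat.Agent.S41.Amalg.GlueNF

open Monoid Fermat.Agent.S41.Amalg.Glue

variable {G : Type*} [Group G] {A B : Subgroup G} {F : Type*} [CommGroup F]

/-- the normal-form hypothesis. -/
def NFHyp (A B : Subgroup G) : Prop :=
  ∀ L : List (Bool × G), L ≠ [] → L.IsChain (fun a b => a.1 ≠ b.1) →
    (∀ a ∈ L, a.1 = false → a.2 ∈ A ∧ a.2 ∉ B) → (∀ a ∈ L, a.1 = true → a.2 ∈ B ∧ a.2 ∉ A) →
    (L.map Prod.snd).prod ≠ 1

/-- tag and value of a letter. -/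
def tagVal (A B : Subgroup G) (x : A ⊕ B) : Bool × G := (!x.isLeft, val A B x)

theorem tagVal_snd (x : A ⊕ B) : (tagVal A B x).2 = val A B x := rfl

theorem alt_isChain {L : List (A ⊕ B)} (h : Alt L) :
    (L.map (tagVal A B)).IsChain (fun a b => a.1 ≠ b.1) := by
  induction h with
  | single x hx => simp
  | cons x y t hx hxy _ ih =>
    rw [List.map_cons, List.map_cons, List.isChain_cons_cons]
    refine ⟨?_, by simpa using ih⟩
    show (!x.isLeft) ≠ (!y.isLeft)
    intro h
    apply hxy
    cases hx' : x.isLeft <;> cases hy' : y.isLeft <;> simp_all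

theorem alt_letters {L : List (A ⊕ B)} (h : Alt L) :
    (∀ a ∈ L.map (tagVal A B), a.1 = false → a.2 ∈ A ∧ a.2 ∉ B) ∧
    (∀ a ∈ L.map (tagVal A B), a.1 = true → a.2 ∈ B ∧ a.2 ∉ A) := by
  have key : ∀ x : A ⊕ B, ¬ InC x →
      ((tagVal A B x).1 = false → (tagVal A B x).2 ∈ A ∧ (tagVal A B x).2 ∉ B) ∧
      ((tagVal A B x).1 = true → (tagVal A B x).2 ∈ B ∧ (tagVal A B x).2 ∉ A) := by
    intro x hx
    rcases x with a | b
    · refine ⟨fun _ => ⟨a.2, fun hb => hx ⟨a.2, hb⟩⟩, fun h => ?_⟩
      simp [tagVal] at h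
    · refine ⟨fun h => ?_, fun _ => ⟨b.2, fun ha => hx ⟨ha, b.2⟩⟩⟩
      simp [tagVal] at h
  induction h with
  | single x hx =>
    constructor
    · intro a ha
      simp only [List.map_cons, List.map_nil, List.mem_singleton] at ha
      subst ha
      exact (key x hx).1
    · intro a ha
      simp only [List.map_cons, List.map_nil, List.mem_singleton] at ha
      subst ha
      exact (key x hx).2
  | cons x y t hx hxy _ ih =>
    constructor
    · intro a ha
      rw [List.map_cons, List.mem_cons] at ha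
      rcases ha with rfl | ha
      · exact (key x hx).1
      · exact ih.1 a ha
    · intro a ha
      rw [List.map_cons, List.mem_cons] at ha
      rcases ha with rfl | ha
      · exact (key x hx).2
      · exact ih.2 a ha

theorem alt_prod_ne_one_of_nf (hNF : NFHyp A B) {L : List (A ⊕ B)} (h : Alt L) :
    (L.map (val A B)).prod ≠ 1 := by
  have hne : L.map (tagVal A B) ≠ [] := by
    cases h <;> simp
  have h1 := hNF (L.map (tagVal A B)) hne (alt_isChain h) (alt_letters h).1 (alt_letters h).2
  rwa [List.map_map] at h1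

/-- **The relation lemma** (normal-form version). -/
theorem wt_prod_eq_one_of_nf (hNF : NFHyp A B) (φA : A →* F) (φB : B →* F)
    (hagree : ∀ (x : G) (ha : x ∈ A) (hb : x ∈ B), φA ⟨x, ha⟩ = φB ⟨x, hb⟩) :
    ∀ (n : ℕ) (L : List (A ⊕ B)), L.length = n → (L.map (val A B)).prod = 1 →
      (L.map (wt φA φB)).prod = 1 := by
  intro n
  induction n using Nat.strong_induction_on with
  | _ n ih =>
    intro L hn hL
    by_cases hm : ∃ (L₁ : List (A ⊕ B)) (x y : A ⊕ B) (L₂ : List (A ⊕ B)),
        L = L₁ ++ x :: y :: L₂ ∧ Mergeable x y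
    · obtain ⟨L₁, x, y, L₂, rfl, hxy⟩ := hm
      obtain ⟨z, hz1, hz2⟩ := exists_merge φA φB hagree hxy
      have hlen : (L₁ ++ z :: L₂).length < n := by
        rw [← hn]; simp
      have h1 := ih _ hlen (L₁ ++ z :: L₂) rfl (by
        rw [List.map_append, List.prod_append, List.map_cons, List.prod_cons, hz1]
        rw [List.map_append, List.prod_append, List.map_cons, List.prod_cons, List.map_cons,
          List.prod_cons] at hL
        rw [← hL]; simp only [mul_assoc])
      rw [List.map_append, List.prod_append, List.map_cons, List.prod_cons, hz2] at h1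
      rw [List.map_append, List.prod_append, List.map_cons, List.prod_cons, List.map_cons,
        List.prod_cons]
      rw [← h1]; simp only [mul_assoc]
    · have hred : ∀ (L₁ : List (A ⊕ B)) (x y : A ⊕ B) (L₂ : List (A ⊕ B)),
          L = L₁ ++ x :: y :: L₂ → ¬ Mergeable x y :=
        fun L₁ x y L₂ h1 h2 => hm ⟨L₁, x, y, L₂, h1, h2⟩
      match L, hn, hL, hred with
      | [], _, _, _ => simp
      | [x], _, hL, _ =>
        rcases x with a | b
        · have : (a : G) = 1 := by simpa [val] using hL
          have ha : a = 1 := Subtype.ext this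
          simp [wt, ha]
        · have : (b : G) = 1 := by simpa [val] using hL
          have hb : b = 1 := Subtype.ext this
          simp [wt, hb]
      | x :: y :: t, _, hL, hred =>
        exact absurd hL
          (alt_prod_ne_one_of_nf hNF (alt_of_not_mergeable _ (by simp) hred))

/-- **Gluing from the normal form** (universal property of `A *_{A ∩ B} B` for commutative
targets). -/
theorem exists_glue_of_nf (hgen : A ⊔ B = ⊤) (hNF : NFHyp A B)
    (φA : A →* F) (φB : B →* F)
    (hagree : ∀ (x : G) (ha : x ∈ A) (hb : x ∈ B), φA ⟨x, ha⟩ = φB ⟨x, hb⟩) :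
    ∃ Φ : G →* F, (∀ a : A, Φ (a : G) = φA a) ∧ (∀ b : B, Φ (b : G) = φB b) := by
  set π : Monoid.Coprod A B →* G := Coprod.lift A.subtype B.subtype with hπ
  set ψ : Monoid.Coprod A B →* F := Coprod.lift φA φB with hψ
  have hsurj : Function.Surjective π := by
    rw [← MonoidHom.range_eq_top, hπ, Coprod.range_lift, Subgroup.range_subtype,
      Subgroup.range_subtype, hgen]
  have hker : π.ker ≤ ψ.ker := by
    intro x hx
    obtain ⟨w, rfl⟩ := Coprod.mk_surjective x
    rw [MonoidHom.mem_ker] at hx ⊢
    rw [hπ, Coprod.lift_apply_mk, FreeMonoid.lift_apply] at hx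
    rw [hψ, Coprod.lift_apply_mk, FreeMonoid.lift_apply]
    exact wt_prod_eq_one_of_nf hNF φA φB hagree _ (FreeMonoid.toList w) rfl hx
  refine ⟨π.liftOfSurjective hsurj ⟨ψ, hker⟩, fun a => ?_, fun b => ?_⟩
  · have h1 : π (Coprod.inl a) = (a : G) := rfl
    rw [← h1]
    exact (MonoidHom.liftOfRightInverse_comp_apply _ _ _ ⟨ψ, hker⟩ (Coprod.inl a))
  · have h1 : π (Coprod.inr b) = (b : G) := rfl
    rw [← h1]
    exact (MonoidHom.liftOfRightInverse_comp_apply _ _ _ ⟨ψ, hker⟩ (Coprod.inr b))

end Fermat.Agent.S41.Amalg.GlueNF
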